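import Mathlib

/-!
# PROJECT D (S48), brick B7a: the function `π cot (π w)` and its exponential expansions

`cotPi w = π cot (π w)`, `ee w = exp (2 π i w)`.
-/

set_option autoImplicit false

namespace Fermat.Agent.S48.Mult

open Complex

noncomputable section

/-- `π cot (π w)`. -/
def cotPi (w : ℂ) : ℂ := (Real.pi : ℂ) * Complex.cot (Real.pi * w)

/-- `e(w) = exp (2 π i w)`. -/
def ee (w : ℂ) : ℂ := Complex.exp (2 * Real.pi * I * w)

theorem ee_add (v w : ℂ) : ee (v + w) = ee v * ee w := by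
  simp only [ee, mul_add, Complex.exp_add]

theorem ee_zero : ee 0 = 1 := by simp [ee]

theorem ee_ne_zero (w : ℂ) : ee w ≠ 0 := Complex.exp_ne_zero _

theorem ee_neg (w : ℂ) : ee (-w) = (ee w)⁻¹ := by
  simp only [ee, mul_neg, Complex.exp_neg]

theorem ee_intCast (n : ℤ) : ee (n : ℂ) = 1 := by
  have h : 2 * (Real.pi : ℂ) * I * (n : ℂ) = (n : ℂ) * (2 * Real.pi * I) := by ring
  rw [ee, h, Complex.exp_int_mul_two_pi_mul_I]

theorem ee_add_intCast (w : ℂ) (n : ℤ) : ee (w + n) = ee w := by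
  rw [ee_add, ee_intCast, mul_one]

theorem ee_nat_mul (n : ℕ) (w : ℂ) : ee (n * w) = ee w ^ n := by
  rw [ee, ee, ← Complex.exp_nat_mul]
  congr 1
  ring

theorem norm_ee (w : ℂ) : ‖ee w‖ = Real.exp (-2 * Real.pi * w.im) := by
  rw [ee, Complex.norm_exp]
  congr 1
  simp [Complex.mul_re, Complex.mul_im]

theorem norm_ee_lt_one {w : ℂ} (hw : 0 < w.im) : ‖ee w‖ < 1 := by
  rw [norm_ee, Real.exp_lt_one_iff]
  have := Real.pi_pos
  nlinarith

theorem cotPi_eq (w : ℂ) : cotPi w = Real.pi * ((ee w + 1) / (I * (1 - ee w))) := by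
  rw [cotPi, ee, Complex.cot_pi_eq_exp_ratio]

theorem cotPi_add_intCast (w : ℂ) (n : ℤ) : cotPi (w + n) = cotPi w := by
  rw [cotPi_eq, cotPi_eq, ee_add_intCast]

theorem cotPi_add_one (w : ℂ) : cotPi (w + 1) = cotPi w := by
  simpa using cotPi_add_intCast w 1

theorem cotPi_neg (w : ℂ) : cotPi (-w) = -cotPi w := by
  simp only [cotPi, mul_neg, Complex.cot, Complex.cos_neg, Complex.sin_neg, div_neg]

/-- `π cot π w + π i = - 2 π i e(w) / (1 - e(w))`. -/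
theorem cotPi_add_pi_I {w : ℂ} (h : ee w ≠ 1) :
    cotPi w + Real.pi * I = -(2 * Real.pi * I) * (ee w / (1 - ee w)) := by
  have h1 : (1 : ℂ) - ee w ≠ 0 := sub_ne_zero.mpr (Ne.symm h)
  rw [cotPi_eq]
  field_simp
  ring_nf
  rw [Complex.I_sq]
  ring

/-- `π cot π w - π i = 2 π i e(-w) / (1 - e(-w))`. -/
theorem cotPi_sub_pi_I {w : ℂ} (h : ee w ≠ 1) :
    cotPi w - Real.pi * I = (2 * Real.pi * I) * (ee (-w) / (1 - ee (-w))) := by
  have h1 : (1 : ℂ) - ee w ≠ 0 := sub_ne_zero.mpr (Ne.symm h)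
  have h0 : ee w ≠ 0 := ee_ne_zero w
  have h2 : ee w - 1 ≠ 0 := sub_ne_zero.mpr h
  rw [cotPi_eq, ee_neg]
  field_simp
  ring_nf
  rw [Complex.I_sq]
  ring

theorem norm_cotPi_add_pi_I_le {w : ℂ} {ρ : ℝ} (hρ : ρ < 1) (h : ‖ee w‖ ≤ ρ) :
    ‖cotPi w + Real.pi * I‖ ≤ 2 * Real.pi / (1 - ρ) * ‖ee w‖ := by
  have hne : ee w ≠ 1 := by
    intro h1
    rw [h1, norm_one] at h
    linarith
  rw [cotPi_add_pi_I hne]
  have h3 : 1 - ρ ≤ ‖1 - ee w‖ := by
    have := norm_sub_norm_le (1 : ℂ) (ee w)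
    rw [norm_one] at this
    linarith
  have h4 : 0 < 1 - ρ := by linarith
  rw [norm_mul, norm_div, norm_neg]
  have h5 : ‖(2 : ℂ) * Real.pi * I‖ = 2 * Real.pi := by
    simp [abs_of_pos Real.pi_pos]
  rw [h5]
  have h6 : ‖ee w‖ / ‖1 - ee w‖ ≤ ‖ee w‖ / (1 - ρ) :=
    div_le_div_of_nonneg_left (norm_nonneg _) h4 h3
  calc 2 * Real.pi * (‖ee w‖ / ‖1 - ee w‖) ≤ 2 * Real.pi * (‖ee w‖ / (1 - ρ)) := by
        apply mul_le_mul_of_nonneg_left h6
        positivity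
    _ = 2 * Real.pi / (1 - ρ) * ‖ee w‖ := by ring

theorem norm_cotPi_sub_pi_I_le {w : ℂ} {ρ : ℝ} (hρ : ρ < 1) (h : ‖ee (-w)‖ ≤ ρ) :
    ‖cotPi w - Real.pi * I‖ ≤ 2 * Real.pi / (1 - ρ) * ‖ee (-w)‖ := by
  have := norm_cotPi_add_pi_I_le hρ h
  rw [cotPi_neg] at this
  have h2 : -cotPi w + Real.pi * I = -(cotPi w - Real.pi * I) := by ring
  rwa [h2, norm_neg] at this

/-- Expansion of `π cot π w` in the upper half plane. -/
theorem hasSum_cotPi_of_norm_lt {w : ℂ} (h : ‖ee w‖ < 1) :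
    HasSum (fun r : ℕ => -(2 * Real.pi * I) * ee w ^ (r + 1)) (cotPi w + Real.pi * I) := by
  have hne : ee w ≠ 1 := by
    intro h1
    rw [h1, norm_one] at h
    exact lt_irrefl _ h
  rw [cotPi_add_pi_I hne]
  apply HasSum.mul_left
  have := (hasSum_geometric_of_norm_lt_one h).mul_left (ee w)
  simp only [← pow_succ'] at this
  rw [div_eq_mul_inv]
  exact this

/-- Expansion of `π cot π w` in the lower half plane. -/
theorem hasSum_cotPi_of_norm_neg_lt {w : ℂ} (h : ‖ee (-w)‖ < 1) :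
    HasSum (fun r : ℕ => (2 * Real.pi * I) * ee (-w) ^ (r + 1)) (cotPi w - Real.pi * I) := by
  have := hasSum_cotPi_of_norm_lt h
  rw [cotPi_neg] at this
  have h2 : cotPi w - Real.pi * I = -(-cotPi w + Real.pi * I) := by ring
  rw [h2]
  have h3 := this.neg
  have h4 : (fun r : ℕ => (2 * (Real.pi : ℂ) * I) * ee (-w) ^ (r + 1)) =
      fun r : ℕ => -(-(2 * (Real.pi : ℂ) * I) * ee (-w) ^ (r + 1)) := by
    funext r
    ring
  rw [h4]
  exact h3

end

end Fermat.Agent.S48.Mult
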