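import Mathlib
import Fermat.Agent.S48.Mult.CotPi

/-!
# PROJECT D (S48), brick B7a: the Eisenstein-summed cotangent series

`Zfun τ w = ∑ᵉ_m π cot π (w + m τ)` (the terms `m` and `-m` paired).  It is `1`-periodic in `w`
and satisfies `Zfun τ (w + τ) = Zfun τ w - 2 π i`.
-/

set_option autoImplicit false

namespace Fermat.Agent.S48.Mult

open Complex Filter Topology

noncomputable section

theorem norm_ee_add_nat_mul (τ w : ℂ) (M : ℕ) : ‖ee (w + M * τ)‖ = ‖ee w‖ * ‖ee τ‖ ^ M := by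
  rw [ee_add, ee_nat_mul, norm_mul, norm_pow]

theorem tendsto_norm_ee_add_nat_mul {τ : ℂ} (hτ : 0 < τ.im) (w : ℂ) :
    Tendsto (fun M : ℕ => ‖ee (w + M * τ)‖) atTop (𝓝 0) := by
  simp only [norm_ee_add_nat_mul]
  have := (tendsto_pow_atTop_nhds_zero_of_lt_one (norm_nonneg _) (norm_ee_lt_one hτ)).const_mul
    ‖ee w‖
  simpa using this

theorem tendsto_cotPi_add_nat_mul {τ : ℂ} (hτ : 0 < τ.im) (w : ℂ) :
    Tendsto (fun M : ℕ => cotPi (w + M * τ)) atTop (𝓝 (-(Real.pi * I))) := by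
  have h0 := tendsto_norm_ee_add_nat_mul hτ w
  have hev : ∀ᶠ M : ℕ in atTop, ‖ee (w + M * τ)‖ ≤ 1 / 2 :=
    h0.eventually (eventually_le_nhds (by norm_num))
  have h1 : Tendsto (fun M : ℕ => cotPi (w + M * τ) + Real.pi * I) atTop (𝓝 0) := by
    apply squeeze_zero_norm' (a := fun M : ℕ => 2 * Real.pi / (1 - 1 / 2) * ‖ee (w + M * τ)‖)
    · filter_upwards [hev] with M hM
      exact norm_cotPi_add_pi_I_le (by norm_num) hM
    · simpa using h0.const_mul (2 * Real.pi / (1 - 1 / 2))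
  have h2 := h1.sub_const (Real.pi * I)
  simpa using h2

theorem tendsto_cotPi_sub_nat_mul {τ : ℂ} (hτ : 0 < τ.im) (w : ℂ) :
    Tendsto (fun M : ℕ => cotPi (w - M * τ)) atTop (𝓝 (Real.pi * I)) := by
  have h := (tendsto_cotPi_add_nat_mul hτ (-w)).neg
  have h2 : (fun M : ℕ => -cotPi (-w + M * τ)) = fun M : ℕ => cotPi (w - M * τ) := by
    funext M
    rw [← cotPi_neg]
    congr 1
    ring
  rw [h2] at h
  simpa using h

/-- The paired term `π cot π (w + (m+1) τ) + π cot π (w - (m+1) τ)`. -/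
def zPair (τ w : ℂ) (m : ℕ) : ℂ := cotPi (w + (m + 1 : ℕ) * τ) + cotPi (w - (m + 1 : ℕ) * τ)

/-- The Eisenstein-summed cotangent series. -/
def Zfun (τ w : ℂ) : ℂ := cotPi w + ∑' m : ℕ, zPair τ w m

theorem norm_zPair_le {τ w : ℂ} {m : ℕ} (h1 : ‖ee (w + (m + 1 : ℕ) * τ)‖ ≤ 1 / 2)
    (h2 : ‖ee (-w + (m + 1 : ℕ) * τ)‖ ≤ 1 / 2) :
    ‖zPair τ w m‖ ≤ 4 * Real.pi * (‖ee w‖ + ‖ee (-w)‖) * ‖ee τ‖ ^ (m + 1) := by
  have e1 : zPair τ w m = (cotPi (w + (m + 1 : ℕ) * τ) + Real.pi * I) +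
      (cotPi (w - (m + 1 : ℕ) * τ) - Real.pi * I) := by
    rw [zPair]; ring
  have hneg : -(w - (m + 1 : ℕ) * τ) = -w + (m + 1 : ℕ) * τ := by ring
  have b1 := norm_cotPi_add_pi_I_le (ρ := 1 / 2) (by norm_num) h1
  have b2 := norm_cotPi_sub_pi_I_le (w := w - (m + 1 : ℕ) * τ) (ρ := 1 / 2) (by norm_num)
    (by rw [hneg]; exact h2)
  rw [hneg] at b2
  rw [norm_ee_add_nat_mul] at b1 b2
  rw [e1]
  refine (norm_add_le _ _).trans ?_
  have h3 : (2 : ℝ) * Real.pi / (1 - 1 / 2) = 4 * Real.pi := by ring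
  rw [h3] at b1 b2
  calc _ ≤ 4 * Real.pi * (‖ee w‖ * ‖ee τ‖ ^ (m + 1)) + 4 * Real.pi * (‖ee (-w)‖ * ‖ee τ‖ ^ (m + 1)) :=
        add_le_add b1 b2
    _ = _ := by ring

theorem summable_zPair {τ : ℂ} (hτ : 0 < τ.im) (w : ℂ) : Summable (zPair τ w) := by
  have hq := norm_ee_lt_one hτ
  have hg : Summable fun m : ℕ => 4 * Real.pi * (‖ee w‖ + ‖ee (-w)‖) * ‖ee τ‖ ^ (m + 1) := by
    apply Summable.mul_left
    exact (summable_nat_add_iff 1).mpr (summable_geometric_of_lt_one (norm_nonneg _) hq)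
  apply Summable.of_norm_bounded_eventually_nat hg
  have h1 : ∀ᶠ M : ℕ in atTop, ‖ee (w + M * τ)‖ ≤ 1 / 2 :=
    (tendsto_norm_ee_add_nat_mul hτ w).eventually (eventually_le_nhds (by norm_num))
  have h2 : ∀ᶠ M : ℕ in atTop, ‖ee (-w + M * τ)‖ ≤ 1 / 2 :=
    (tendsto_norm_ee_add_nat_mul hτ (-w)).eventually (eventually_le_nhds (by norm_num))
  have h1' := (tendsto_add_atTop_nat 1).eventually h1
  have h2' := (tendsto_add_atTop_nat 1).eventually h2
  filter_upwards [h1', h2'] with m hm1 hm2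
  exact norm_zPair_le hm1 hm2

theorem hasSum_zPair {τ : ℂ} (hτ : 0 < τ.im) (w : ℂ) :
    HasSum (zPair τ w) (Zfun τ w - cotPi w) := by
  rw [Zfun, add_sub_cancel_left]
  exact (summable_zPair hτ w).hasSum

/-- Symmetric partial sums. -/
def zPartial (τ w : ℂ) (M : ℕ) : ℂ := cotPi w + ∑ m ∈ Finset.range M, zPair τ w m

theorem tendsto_zPartial {τ : ℂ} (hτ : 0 < τ.im) (w : ℂ) :
    Tendsto (zPartial τ w) atTop (𝓝 (Zfun τ w)) := by
  have := (summable_zPair hτ w).hasSum.tendsto_sum_nat.const_add (cotPi w)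
  exact this

theorem zPartial_add_tau (τ w : ℂ) (M : ℕ) :
    zPartial τ (w + τ) M =
      zPartial τ w M + cotPi (w + (M + 1 : ℕ) * τ) - cotPi (w - (M : ℕ) * τ) := by
  induction M with
  | zero => simp [zPartial]
  | succ M ih =>
    have e1 : zPartial τ (w + τ) (M + 1) = zPartial τ (w + τ) M + zPair τ (w + τ) M := by
      simp only [zPartial, Finset.sum_range_succ]; ring
    have e2 : zPartial τ w (M + 1) = zPartial τ w M + zPair τ w M := by
      simp only [zPartial, Finset.sum_range_succ]; ring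
    rw [e1, e2, ih]
    simp only [zPair]
    have a1 : w + τ + ((M + 1 : ℕ) : ℂ) * τ = w + ((M + 1 + 1 : ℕ) : ℂ) * τ := by
      push_cast; ring
    have a2 : w + τ - ((M + 1 : ℕ) : ℂ) * τ = w - ((M : ℕ) : ℂ) * τ := by
      push_cast; ring
    rw [a1, a2]
    ring

theorem Zfun_add_one (τ w : ℂ) : Zfun τ (w + 1) = Zfun τ w := by
  have h : ∀ m, zPair τ (w + 1) m = zPair τ w m := by
    intro m
    simp only [zPair]
    have a1 : w + 1 + ((m + 1 : ℕ) : ℂ) * τ = (w + ((m + 1 : ℕ) : ℂ) * τ) + 1 := by ring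
    have a2 : w + 1 - ((m + 1 : ℕ) : ℂ) * τ = (w - ((m + 1 : ℕ) : ℂ) * τ) + 1 := by ring
    rw [a1, a2, cotPi_add_one, cotPi_add_one]
  simp only [Zfun, h, cotPi_add_one]

theorem Zfun_add_intCast (τ w : ℂ) (n : ℤ) : Zfun τ (w + n) = Zfun τ w := by
  have h : ∀ m, zPair τ (w + n) m = zPair τ w m := by
    intro m
    simp only [zPair]
    have a1 : w + n + ((m + 1 : ℕ) : ℂ) * τ = (w + ((m + 1 : ℕ) : ℂ) * τ) + n := by ring
    have a2 : w + n - ((m + 1 : ℕ) : ℂ) * τ = (w - ((m + 1 : ℕ) : ℂ) * τ) + n := by ring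
    rw [a1, a2, cotPi_add_intCast, cotPi_add_intCast]
  simp only [Zfun, h, cotPi_add_intCast]

/-- The quasi-periodicity `Z(w + τ) = Z(w) - 2 π i`. -/
theorem Zfun_add_tau {τ : ℂ} (hτ : 0 < τ.im) (w : ℂ) :
    Zfun τ (w + τ) = Zfun τ w - 2 * Real.pi * I := by
  have h1 := tendsto_zPartial hτ (w + τ)
  have h2 : Tendsto (fun M : ℕ => zPartial τ w M + cotPi (w + (M + 1 : ℕ) * τ) -
      cotPi (w - (M : ℕ) * τ)) atTop (𝓝 (Zfun τ w + -(Real.pi * I) - Real.pi * I)) := by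
    apply Tendsto.sub
    · apply Tendsto.add (tendsto_zPartial hτ w)
      exact (tendsto_cotPi_add_nat_mul hτ w).comp (tendsto_add_atTop_nat 1)
    · exact tendsto_cotPi_sub_nat_mul hτ w
  have h3 : zPartial τ (w + τ) = fun M : ℕ => zPartial τ w M + cotPi (w + (M + 1 : ℕ) * τ) -
      cotPi (w - (M : ℕ) * τ) := funext (zPartial_add_tau τ w)
  rw [h3] at h1
  have := tendsto_nhds_unique h1 h2
  rw [this]
  ring

theorem Zfun_sub_tau {τ : ℂ} (hτ : 0 < τ.im) (w : ℂ) :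
    Zfun τ (w - τ) = Zfun τ w + 2 * Real.pi * I := by
  have := Zfun_add_tau hτ (w - τ)
  rw [sub_add_cancel] at this
  rw [this]
  ring

theorem Zfun_add_nat_mul_tau {τ : ℂ} (hτ : 0 < τ.im) (w : ℂ) (m : ℕ) :
    Zfun τ (w + m * τ) = Zfun τ w - m * (2 * Real.pi * I) := by
  induction m with
  | zero => simp
  | succ m ih =>
    have : w + ((m + 1 : ℕ) : ℂ) * τ = (w + m * τ) + τ := by push_cast; ring
    rw [this, Zfun_add_tau hτ, ih]
    push_cast
    ring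

theorem Zfun_add_int_mul_tau {τ : ℂ} (hτ : 0 < τ.im) (w : ℂ) (m : ℤ) :
    Zfun τ (w + m * τ) = Zfun τ w - m * (2 * Real.pi * I) := by
  obtain ⟨k, rfl | rfl⟩ := m.eq_nat_or_neg
  · simpa using Zfun_add_nat_mul_tau hτ w k
  · have := Zfun_add_nat_mul_tau hτ (w + ((-(k : ℤ) : ℤ) : ℂ) * τ) k
    have e : w + ((-(k : ℤ) : ℤ) : ℂ) * τ + (k : ℂ) * τ = w := by push_cast; ring
    rw [e] at this
    rw [this]
    push_cast
    ring

/-- Quasi-periodicity under the whole lattice. -/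
theorem Zfun_add_lattice {τ : ℂ} (hτ : 0 < τ.im) (w : ℂ) (m n : ℤ) :
    Zfun τ (w + (m * τ + n)) = Zfun τ w - m * (2 * Real.pi * I) := by
  rw [← add_assoc, Zfun_add_intCast, Zfun_add_int_mul_tau hτ]

end

end Fermat.Agent.S48.Mult
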