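import Mathlib
import Fermat.Agent.S48.Mult.ZFun

/-!
# PROJECT D (S48), brick B7a: the Weierstrass zeta function as a lattice sum

`wzeta τ w = ∑_{(m,n)} (1/(w - ω) + 1/ω + w/ω²)`, `ω = m τ + n`; by Lean's conventions the term
at `ω = 0` is `1/w`.  The series is absolutely convergent.
-/

set_option autoImplicit false

namespace Fermat.Agent.S48.Mult

open Complex Filter Topology

noncomputable section

/-- The lattice point `m τ + n`. -/
def lat (τ : ℂ) (p : ℤ × ℤ) : ℂ := p.1 * τ + p.2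

/-- The summand of the Weierstrass zeta function (equal to `1 / w` at the origin). -/
def zetaTerm (τ w : ℂ) (p : ℤ × ℤ) : ℂ := 1 / (w - lat τ p) + 1 / lat τ p + w / lat τ p ^ 2

/-- The Weierstrass zeta function of the lattice `ℤ τ + ℤ`. -/
def wzeta (τ w : ℂ) : ℂ := ∑' p : ℤ × ℤ, zetaTerm τ w p

theorem zetaTerm_eq {τ w : ℂ} {p : ℤ × ℤ} (h0 : lat τ p ≠ 0) (h1 : w - lat τ p ≠ 0) :
    zetaTerm τ w p = w ^ 2 / (lat τ p ^ 2 * (w - lat τ p)) := by
  rw [zetaTerm]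
  field_simp
  ring

theorem tendsto_norm_cofinite_fin2 :
    Tendsto (fun x : Fin 2 → ℤ => ‖x‖) cofinite atTop := by
  rw [← cocompact_eq_cofinite]
  exact tendsto_norm_cocompact_atTop

theorem summable_zetaTerm {τ : ℂ} (hτ : 0 < τ.im) (w : ℂ) : Summable (zetaTerm τ w) := by
  set z : UpperHalfPlane := ⟨τ, hτ⟩ with hz
  have hr : 0 < EisensteinSeries.r z := EisensteinSeries.r_pos z
  -- transport to `Fin 2 → ℤ`
  rw [← (finTwoArrowEquiv ℤ).summable_iff]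
  set C : ℝ := 2 * ‖w‖ ^ 2 * (EisensteinSeries.r z) ^ (-(3 : ℝ)) with hC
  have hg : Summable fun x : Fin 2 → ℤ => C * ‖x‖ ^ (-(3 : ℝ)) :=
    (EisensteinSeries.summable_one_div_norm_rpow (by norm_num : (2 : ℝ) < 3)).mul_left C
  apply Summable.of_norm_bounded_eventually hg
  have hev := tendsto_norm_cofinite_fin2.eventually_ge_atTop
    ((2 * ‖w‖ + 1) / EisensteinSeries.r z)
  filter_upwards [hev] with x hx
  have hx' : 2 * ‖w‖ + 1 ≤ EisensteinSeries.r z * ‖x‖ := by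
    rw [div_le_iff₀ hr] at hx
    linarith
  have hx0 : x ≠ 0 := by
    rintro rfl
    simp at hx'
    have := norm_nonneg w
    linarith
  have hω := EisensteinSeries.r_mul_max_le z hx0
  have hlat : lat τ (finTwoArrowEquiv ℤ x) = x 0 * τ + x 1 := rfl
  set ω : ℂ := lat τ (finTwoArrowEquiv ℤ x) with hωdef
  have hω' : EisensteinSeries.r z * ‖x‖ ≤ ‖ω‖ := by
    rw [hlat]
    exact hω
  have hωpos : 0 < ‖ω‖ := by
    have := norm_nonneg w
    linarith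
  have hω0 : ω ≠ 0 := norm_pos_iff.mp hωpos
  have hwω : ‖ω‖ / 2 ≤ ‖w - ω‖ := by
    have h1 : ‖ω‖ - ‖w‖ ≤ ‖w - ω‖ := by
      have := norm_sub_norm_le ω w
      rwa [norm_sub_rev] at this
    have := norm_nonneg w
    linarith
  have hwω0 : w - ω ≠ 0 := by
    apply norm_pos_iff.mp
    linarith
  show ‖zetaTerm τ w (finTwoArrowEquiv ℤ x)‖ ≤ _
  rw [zetaTerm_eq hω0 hwω0, norm_div, norm_mul, norm_pow, norm_pow]
  have hxpos : 0 < ‖x‖ := norm_pos_iff.mpr hx0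
  have e1 : C * ‖x‖ ^ (-(3 : ℝ)) = 2 * ‖w‖ ^ 2 / (EisensteinSeries.r z * ‖x‖) ^ 3 := by
    rw [hC, Real.rpow_neg hr.le, Real.rpow_neg hxpos.le]
    have h3 : ((3 : ℕ) : ℝ) = (3 : ℝ) := by norm_num
    rw [← h3, Real.rpow_natCast, Real.rpow_natCast]
    field_simp
  rw [e1]
  have hden : (EisensteinSeries.r z * ‖x‖) ^ 3 / 2 ≤ ‖ω‖ ^ 2 * ‖w - ω‖ := by
    have hp : 0 < EisensteinSeries.r z * ‖x‖ := mul_pos hr hxpos
    calc (EisensteinSeries.r z * ‖x‖) ^ 3 / 2 ≤ ‖ω‖ ^ 3 / 2 := by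
          apply div_le_div_of_nonneg_right _ (by norm_num)
          exact pow_le_pow_left₀ hp.le hω' 3
      _ = ‖ω‖ ^ 2 * (‖ω‖ / 2) := by ring
      _ ≤ ‖ω‖ ^ 2 * ‖w - ω‖ := by
          apply mul_le_mul_of_nonneg_left hwω
          positivity
  have hp3 : 0 < (EisensteinSeries.r z * ‖x‖) ^ 3 := by positivity
  calc ‖w‖ ^ 2 / (‖ω‖ ^ 2 * ‖w - ω‖) ≤ ‖w‖ ^ 2 / ((EisensteinSeries.r z * ‖x‖) ^ 3 / 2) := by
        apply div_le_div_of_nonneg_left (by positivity) (by positivity) hden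
    _ = 2 * ‖w‖ ^ 2 / (EisensteinSeries.r z * ‖x‖) ^ 3 := by
        field_simp

end

end Fermat.Agent.S48.Mult
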