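import Mathlib
import Fermat.Agent.S48.Mult.WZeta

/-!
# PROJECT D (S48), brick B7a: `ζ(w) = Z(w) + c(τ) w`

Summing the absolutely convergent lattice sum of the Weierstrass zeta function first over `n`
(cotangent partial fractions), then over `m` (the terms `m` and `-m` paired) gives
`wzeta τ w = Zfun τ w + w * cTau τ`.
-/

set_option autoImplicit false

namespace Fermat.Agent.S48.Mult

open Complex Filter Topology

noncomputable section

/-- `w` is not a point of the lattice `ℤ τ + ℤ`. -/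
def NotInLat (τ w : ℂ) : Prop := ∀ m n : ℤ, w ≠ m * τ + n

theorem NotInLat.ne_zero {τ w : ℂ} (h : NotInLat τ w) : w ≠ 0 := by
  have := h 0 0
  simpa using this

theorem NotInLat.sub_mem {τ w : ℂ} (h : NotInLat τ w) (m : ℤ) :
    w - m * τ ∈ Complex.integerComplement := by
  rw [Complex.mem_integerComplement_iff]
  rintro ⟨n, hn⟩
  apply h m n
  rw [hn]
  ring

theorem NotInLat.add_lat {τ w : ℂ} (h : NotInLat τ w) (m n : ℤ) : NotInLat τ (w + (m * τ + n)) := by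
  intro m' n' h'
  apply h (m' - m) (n' - n)
  push_cast
  linear_combination h'

theorem int_mul_mem_integerComplement {τ : ℂ} (hτ : 0 < τ.im) {m : ℤ} (hm : m ≠ 0) :
    (m : ℂ) * τ ∈ Complex.integerComplement := by
  rw [Complex.mem_integerComplement_iff]
  rintro ⟨n, hn⟩
  have := congrArg Complex.im hn
  simp at this
  rcases this with h | h
  · exact hm h
  · exact hτ.ne' h

/-- Pairing the terms `n` and `-n` of a summable family over `ℤ`. -/
theorem hasSum_int_pair {g : ℤ → ℂ} (hg : Summable g) :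
    HasSum (fun n : ℕ => g ((n + 1 : ℕ) : ℤ) + g (-((n + 1 : ℕ) : ℤ))) (∑' n, g n - g 0) := by
  have h1 := hg.hasSum.nat_add_neg
  have h2 := (hasSum_nat_add_iff' 1).mpr h1
  have e : ∑' n, g n + g 0 - ∑ i ∈ Finset.range 1, (g (i : ℤ) + g (-(i : ℤ))) = ∑' n, g n - g 0 := by
    simp
  rw [e] at h2
  exact h2

/-- `∑_{n ∈ ℤ} 1/(y+n)^2`, the terms `n` and `-n` paired. -/
def T2 (y : ℂ) : ℂ :=
  1 / y ^ 2 + ∑' n : ℕ, (1 / (y + (n + 1 : ℕ)) ^ 2 + 1 / (y - (n + 1 : ℕ)) ^ 2)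

theorem summable_T2_terms (y : ℂ) :
    Summable fun n : ℕ => (1 / (y + (n + 1 : ℕ)) ^ 2 + 1 / (y - (n + 1 : ℕ)) ^ 2) := by
  have h := EisensteinSeries.linear_right_summable y 1 (k := 2) le_rfl
  have i1 : Function.Injective fun n : ℕ => ((n + 1 : ℕ) : ℤ) := by
    intro a b hab
    simpa using hab
  have i2 : Function.Injective fun n : ℕ => -((n + 1 : ℕ) : ℤ) := by
    intro a b hab
    simpa using hab
  have s1 := h.comp_injective i1
  have s2 := h.comp_injective i2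
  refine (s1.add s2).congr fun n => ?_
  simp only [Function.comp_apply]
  push_cast
  simp only [one_div, one_mul, zpow_ofNat, ← sub_eq_add_neg]

theorem hasSum_T2_terms (y : ℂ) :
    HasSum (fun n : ℕ => (1 / (y + (n + 1 : ℕ)) ^ 2 + 1 / (y - (n + 1 : ℕ)) ^ 2))
      (T2 y - 1 / y ^ 2) := by
  rw [T2, add_sub_cancel_left]
  exact (summable_T2_terms y).hasSum

theorem cotPi_zero : cotPi 0 = 0 := by
  simp [cotPi, Complex.cot]

theorem hasSum_cotTerm {x : ℂ} (hx : x ∈ Complex.integerComplement ∨ x = 0) :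
    HasSum (fun n : ℕ => (1 / (x - (n + 1 : ℕ)) + 1 / (x + (n + 1 : ℕ)))) (cotPi x - 1 / x) := by
  rcases hx with hx | rfl
  · have h1 := (summable_cotTerm hx).hasSum
    rw [← cot_series_rep' hx] at h1
    simp only [cotTerm] at h1
    have e : (fun n : ℕ => (1 / (x - (n + 1 : ℕ)) + 1 / (x + (n + 1 : ℕ)))) =
        fun n : ℕ => 1 / (x - ((n : ℂ) + 1)) + 1 / (x + ((n : ℂ) + 1)) := by
      funext n
      push_cast
      rfl
    rw [e]
    exact h1
  · have : (fun n : ℕ => (1 / ((0 : ℂ) - (n + 1 : ℕ)) + 1 / ((0 : ℂ) + (n + 1 : ℕ)))) = fun _ => 0 := by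
      funext n
      rw [zero_sub, zero_add, one_div, one_div, inv_neg, neg_add_cancel]
    rw [this, cotPi_zero]
    simp

/-- The inner sum over `n`. -/
theorem tsum_inner {x y w : ℂ} (hx : x ∈ Complex.integerComplement)
    (hy : y ∈ Complex.integerComplement ∨ y = 0)
    (hs : Summable fun n : ℤ => 1 / (x - n) + 1 / (y + n) + w / (y + n) ^ 2) :
    ∑' n : ℤ, (1 / (x - n) + 1 / (y + n) + w / (y + n) ^ 2) = cotPi x + cotPi y + w * T2 y := by
  have h1 := hasSum_int_pair hs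
  have hA := hasSum_cotTerm (Or.inl hx)
  have hB := hasSum_cotTerm hy
  have hC := (hasSum_T2_terms y).mul_left w
  have h2 := (hA.add hB).add hC
  have e : (fun n : ℕ => (1 / (x - (n + 1 : ℕ)) + 1 / (x + (n + 1 : ℕ))) +
      (1 / (y - (n + 1 : ℕ)) + 1 / (y + (n + 1 : ℕ))) +
      w * (1 / (y + (n + 1 : ℕ)) ^ 2 + 1 / (y - (n + 1 : ℕ)) ^ 2)) =
      fun n : ℕ => (1 / (x - ((n + 1 : ℕ) : ℤ)) + 1 / (y + ((n + 1 : ℕ) : ℤ)) +
        w / (y + ((n + 1 : ℕ) : ℤ)) ^ 2) +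
      (1 / (x - ((-((n + 1 : ℕ) : ℤ) : ℤ) : ℂ)) + 1 / (y + ((-((n + 1 : ℕ) : ℤ) : ℤ) : ℂ)) +
        w / (y + ((-((n + 1 : ℕ) : ℤ) : ℤ) : ℂ)) ^ 2) := by
    funext n
    push_cast
    rw [sub_neg_eq_add, ← sub_eq_add_neg]
    ring
  rw [e] at h2
  have h3 := h1.unique h2
  have e0 : (1 / (x - ((0 : ℤ) : ℂ)) + 1 / (y + ((0 : ℤ) : ℂ)) + w / (y + ((0 : ℤ) : ℂ)) ^ 2) =
      1 / x + 1 / y + w / y ^ 2 := by simp
  rw [e0] at h3
  linear_combination h3

/-- The constant `c(τ) = G₂(τ)` (Eisenstein summation). -/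
def cTau (τ : ℂ) : ℂ :=
  T2 0 + ∑' m : ℕ, (T2 ((m + 1 : ℕ) * τ) + T2 (-((m + 1 : ℕ) * τ)))

theorem zetaTerm_mk (τ w : ℂ) (m n : ℤ) :
    zetaTerm τ w (m, n) =
      1 / ((w - m * τ) - n) + 1 / ((m : ℂ) * τ + n) + w / ((m : ℂ) * τ + n) ^ 2 := by
  simp only [zetaTerm, lat, sub_sub]

/-- The inner sums of the Weierstrass zeta series. -/
theorem tsum_zetaTerm_inner {τ : ℂ} (hτ : 0 < τ.im) {w : ℂ} (hw : NotInLat τ w) (m : ℤ) :
    ∑' n : ℤ, zetaTerm τ w (m, n) =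
      cotPi (w - m * τ) + cotPi (m * τ) + w * T2 (m * τ) := by
  have hs : Summable fun n : ℤ => zetaTerm τ w (m, n) := (summable_zetaTerm hτ w).prod_factor m
  simp only [zetaTerm_mk] at hs ⊢
  apply tsum_inner (hw.sub_mem m) _ hs
  by_cases hm : m = 0
  · right; simp [hm]
  · left; exact int_mul_mem_integerComplement hτ hm

/-- **The Weierstrass zeta function by Eisenstein summation.** -/
theorem wzeta_eq {τ : ℂ} (hτ : 0 < τ.im) {w : ℂ} (hw : NotInLat τ w) :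
    wzeta τ w = Zfun τ w + w * cTau τ := by
  have hsum := summable_zetaTerm hτ w
  have h1 : wzeta τ w = ∑' m : ℤ, ∑' n : ℤ, zetaTerm τ w (m, n) := hsum.tsum_prod
  have hA : Summable fun m : ℤ => ∑' n : ℤ, zetaTerm τ w (m, n) := hsum.prod
  have h2 := hasSum_int_pair hA
  rw [← h1] at h2
  simp only [tsum_zetaTerm_inner hτ hw] at h2
  -- the paired terms
  have e : (fun n : ℕ => cotPi (w - (((n + 1 : ℕ) : ℤ) : ℂ) * τ) + cotPi ((((n + 1 : ℕ) : ℤ) : ℂ) * τ) +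
      w * T2 ((((n + 1 : ℕ) : ℤ) : ℂ) * τ) +
      (cotPi (w - ((-((n + 1 : ℕ) : ℤ) : ℤ) : ℂ) * τ) + cotPi (((-((n + 1 : ℕ) : ℤ) : ℤ) : ℂ) * τ) +
      w * T2 (((-((n + 1 : ℕ) : ℤ) : ℤ) : ℂ) * τ))) =
      fun n : ℕ => zPair τ w n + w * (T2 ((n + 1 : ℕ) * τ) + T2 (-((n + 1 : ℕ) * τ))) := by
    funext n
    have a1 : ((-((n + 1 : ℕ) : ℤ) : ℤ) : ℂ) * τ = -(((n + 1 : ℕ) : ℂ) * τ) := by push_cast; ring
    have a2 : (((n + 1 : ℕ) : ℤ) : ℂ) = ((n + 1 : ℕ) : ℂ) := by push_cast; ring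
    rw [a1, a2, cotPi_neg, sub_neg_eq_add, zPair]
    ring
  rw [e] at h2
  have h3 := h2.sub (hasSum_zPair hτ w)
  simp only [add_sub_cancel_left] at h3
  have h4 := h3.mul_left w⁻¹
  have hw0 := hw.ne_zero
  simp only [← mul_assoc, inv_mul_cancel₀ hw0, one_mul] at h4
  have h5 := h4.tsum_eq
  rw [cTau, h5]
  simp only [Int.cast_zero, zero_mul, sub_zero, cotPi_zero]
  field_simp
  ring

end

end Fermat.Agent.S48.Mult
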