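import Mathlib
import Fermat.Agent.S48.Mult.ZetaZ

/-!
# PROJECT D (S48), brick B7a: homogeneity of the Weierstrass zeta function and the weight one
transformation law

For integers `a b c d` with `a d - b c = 1`, `j = c τ + d`, `τ' = (a τ + b) / j`:
`wzeta τ' w = j * wzeta τ (j w)` (reindexing the lattice sum), hence
`cTau τ' = j² cTau τ - 2 π i c j` and
`E1 N v τ' = j * E1 N (v γ) τ` for `E1 N v τ = Zfun τ ((v₁ τ + v₂)/N) + 2 π i v₁ / N`.
-/

set_option autoImplicit false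

namespace Fermat.Agent.S48.Mult

open Complex Filter Topology

noncomputable section

/-! ### Quasi-periodicity of `wzeta` -/

theorem wzeta_add_lat {τ : ℂ} (hτ : 0 < τ.im) {w : ℂ} (hw : NotInLat τ w) (m n : ℤ) :
    wzeta τ (w + (m * τ + n)) =
      wzeta τ w + m * (cTau τ * τ - 2 * Real.pi * I) + n * cTau τ := by
  rw [wzeta_eq hτ (hw.add_lat m n), wzeta_eq hτ hw, Zfun_add_lattice hτ]
  ring

/-! ### The action of an integral matrix of determinant one on `ℤ × ℤ` -/

/-- `(m, n) ↦ (m, n) γ = (m a + n c, m b + n d)`. -/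
def vecMulEquiv (a b c d : ℤ) (h : a * d - b * c = 1) : ℤ × ℤ ≃ ℤ × ℤ where
  toFun p := (p.1 * a + p.2 * c, p.1 * b + p.2 * d)
  invFun p := (p.1 * d - p.2 * c, -(p.1 * b) + p.2 * a)
  left_inv p := by
    ext
    · simp only
      linear_combination p.1 * h
    · simp only
      linear_combination p.2 * h
  right_inv p := by
    ext
    · simp only
      linear_combination p.1 * h
    · simp only
      linear_combination p.2 * h

@[simp]
theorem vecMulEquiv_apply (a b c d : ℤ) (h : a * d - b * c = 1) (p : ℤ × ℤ) :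
    vecMulEquiv a b c d h p = (p.1 * a + p.2 * c, p.1 * b + p.2 * d) := rfl

section Moebius

variable {a b c d : ℤ} (h : a * d - b * c = 1) {τ : ℂ}

theorem denom_ne_zero' (hτ : 0 < τ.im) (h : a * d - b * c = 1) : (c : ℂ) * τ + d ≠ 0 := by
  intro h0
  have him := congrArg Complex.im h0
  simp at him
  rcases him with hc | hτ0
  · have hre := congrArg Complex.re h0
    simp [hc] at hre
    have hd : d = 0 := by exact_mod_cast hre
    rw [hc, hd] at h
    simp at h
  · exact hτ.ne' hτ0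

theorem moebius_im (hτ : 0 < τ.im) (h : a * d - b * c = 1) :
    0 < (((a : ℂ) * τ + b) / ((c : ℂ) * τ + d)).im := by
  have hj := denom_ne_zero' hτ h
  rw [Complex.div_im]
  have hn : 0 < Complex.normSq ((c : ℂ) * τ + d) := Complex.normSq_pos.mpr hj
  have hR : ((a * d - b * c : ℤ) : ℝ) = 1 := by exact_mod_cast h
  push_cast at hR
  have i1 : ((a : ℂ) * τ + b).im = a * τ.im := by simp
  have i2 : ((a : ℂ) * τ + b).re = a * τ.re + b := by simp
  have i3 : ((c : ℂ) * τ + d).im = c * τ.im := by simp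
  have i4 : ((c : ℂ) * τ + d).re = c * τ.re + d := by simp
  rw [i1, i2, i3, i4, ← sub_div]
  apply div_pos _ hn
  have e : (a : ℝ) * τ.im * (c * τ.re + d) - (a * τ.re + b) * (c * τ.im) = τ.im := by
    linear_combination τ.im * hR
  rw [e]
  exact hτ

theorem lat_moebius (hτ : 0 < τ.im) (h : a * d - b * c = 1) (p : ℤ × ℤ) :
    lat (((a : ℂ) * τ + b) / ((c : ℂ) * τ + d)) p =
      lat τ (vecMulEquiv a b c d h p) / ((c : ℂ) * τ + d) := by
  have hj := denom_ne_zero' hτ h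
  have key : ((a : ℂ) * τ + b) / ((c : ℂ) * τ + d) * ((c : ℂ) * τ + d) = (a : ℂ) * τ + b :=
    div_mul_cancel₀ _ hj
  simp only [lat, vecMulEquiv_apply]
  rw [eq_div_iff hj]
  push_cast
  linear_combination (p.1 : ℂ) * key

theorem zetaTerm_moebius (hτ : 0 < τ.im) (h : a * d - b * c = 1) (w : ℂ) (p : ℤ × ℤ) :
    zetaTerm (((a : ℂ) * τ + b) / ((c : ℂ) * τ + d)) w p =
      ((c : ℂ) * τ + d) * zetaTerm τ (((c : ℂ) * τ + d) * w) (vecMulEquiv a b c d h p) := by
  have hj := denom_ne_zero' hτ h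
  simp only [zetaTerm, lat_moebius hτ h]
  set ω := lat τ (vecMulEquiv a b c d h p)
  set j := (c : ℂ) * τ + d
  have e1 : w - ω / j = (j * w - ω) / j := by field_simp
  rw [e1, one_div_div, one_div_div, div_pow, div_div_eq_mul_div]
  ring

/-- **Homogeneity of the Weierstrass zeta function.** -/
theorem wzeta_moebius (hτ : 0 < τ.im) (h : a * d - b * c = 1) (w : ℂ) :
    wzeta (((a : ℂ) * τ + b) / ((c : ℂ) * τ + d)) w =
      ((c : ℂ) * τ + d) * wzeta τ (((c : ℂ) * τ + d) * w) := by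
  simp only [wzeta, zetaTerm_moebius hτ h]
  rw [tsum_mul_left]
  congr 1
  exact (vecMulEquiv a b c d h).tsum_eq (zetaTerm τ (((c : ℂ) * τ + d) * w))

theorem notInLat_moebius (hτ : 0 < τ.im) (h : a * d - b * c = 1) {w : ℂ}
    (hw : NotInLat (((a : ℂ) * τ + b) / ((c : ℂ) * τ + d)) w) :
    NotInLat τ (((c : ℂ) * τ + d) * w) := by
  have hj := denom_ne_zero' hτ h
  intro m n hmn
  obtain ⟨p, hp⟩ := (vecMulEquiv a b c d h).surjective (m, n)
  have h1 := lat_moebius hτ h p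
  rw [hp] at h1
  apply hw p.1 p.2
  have h2 : lat τ (m, n) = (m : ℂ) * τ + n := rfl
  rw [h2, ← hmn] at h1
  have h3 : lat (((a : ℂ) * τ + b) / ((c : ℂ) * τ + d)) p =
      (p.1 : ℂ) * (((a : ℂ) * τ + b) / ((c : ℂ) * τ + d)) + p.2 := rfl
  rw [← h3, h1]
  field_simp

theorem notInLat_half {τ : ℂ} (hτ : 0 < τ.im) : NotInLat τ (1 / 2) := by
  intro m n hmn
  have him := congrArg Complex.im hmn
  simp at him
  rcases him with hm | hτ0
  · have hre := congrArg Complex.re hmn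
    simp [hm] at hre
    have h2 : (2 : ℝ) * n = 1 := by
      field_simp at hre
      linarith
    have h3 : (2 : ℤ) * n = 1 := by exact_mod_cast h2
    omega
  · exact hτ.ne' hτ0

/-- The transformation law of `cTau = G₂`. -/
theorem cTau_moebius (hτ : 0 < τ.im) (h : a * d - b * c = 1) :
    cTau (((a : ℂ) * τ + b) / ((c : ℂ) * τ + d)) =
      ((c : ℂ) * τ + d) ^ 2 * cTau τ - 2 * Real.pi * I * c * ((c : ℂ) * τ + d) := by
  set τ' := ((a : ℂ) * τ + b) / ((c : ℂ) * τ + d) with hτ'def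
  set j := (c : ℂ) * τ + d with hjdef
  have hτ' : 0 < τ'.im := moebius_im hτ h
  have hw' : NotInLat τ' (1 / 2) := notInLat_half hτ'
  have hw : NotInLat τ (j * (1 / 2)) := notInLat_moebius hτ h hw'
  have h1 := wzeta_add_lat hτ' hw' 0 1
  simp only [Int.cast_zero, zero_mul, zero_add, Int.cast_one, one_mul, add_zero] at h1
  have h2 := wzeta_add_lat hτ hw c d
  rw [wzeta_moebius hτ h, wzeta_moebius hτ h] at h1
  have e : j * (1 / 2 + 1) = j * (1 / 2) + ((c : ℂ) * τ + d) := by rw [hjdef]; ring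
  rw [e, h2] at h1
  linear_combination -h1

end Moebius

/-! ### The weight one Eisenstein series -/

/-- The division point `(v₁ τ + v₂) / N`. -/
def divPt (N : ℕ) (v : ℤ × ℤ) (τ : ℂ) : ℂ := ((v.1 : ℂ) * τ + v.2) / N

/-- The weight one Eisenstein series attached to `v ∈ ℤ²` (it depends only on `v` mod `N`):
`E1 N v τ = ζ(z_v; τ) - (v₁ η(τ) + v₂ η(1)) / N = Z(z_v; τ) + 2 π i v₁ / N`. -/
def E1 (N : ℕ) (v : ℤ × ℤ) (τ : ℂ) : ℂ := Zfun τ (divPt N v τ) + 2 * Real.pi * I * v.1 / N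

theorem E1_eq_wzeta {N : ℕ} {v : ℤ × ℤ} {τ : ℂ} (hτ : 0 < τ.im)
    (hv : NotInLat τ (divPt N v τ)) :
    E1 N v τ = wzeta τ (divPt N v τ) - divPt N v τ * cTau τ + 2 * Real.pi * I * v.1 / N := by
  rw [E1, wzeta_eq hτ hv]
  ring

/-- `E1` depends only on `v` modulo `N`. -/
theorem E1_add_mul {N : ℕ} (hN : N ≠ 0) (v u : ℤ × ℤ) {τ : ℂ} (hτ : 0 < τ.im) :
    E1 N (v.1 + N * u.1, v.2 + N * u.2) τ = E1 N v τ := by
  have hN' : (N : ℂ) ≠ 0 := Nat.cast_ne_zero.mpr hN
  have e : divPt N (v.1 + N * u.1, v.2 + N * u.2) τ = divPt N v τ + ((u.1 : ℂ) * τ + u.2) := by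
    simp only [divPt]
    push_cast
    field_simp
    ring
  rw [E1, E1, e, Zfun_add_lattice hτ]
  push_cast
  field_simp
  ring

/-- **The weight one transformation law.** -/
theorem E1_moebius {N : ℕ} (hN : N ≠ 0) {a b c d : ℤ} (h : a * d - b * c = 1) {τ : ℂ}
    (hτ : 0 < τ.im) (v : ℤ × ℤ)
    (hv : NotInLat (((a : ℂ) * τ + b) / ((c : ℂ) * τ + d))
      (divPt N v (((a : ℂ) * τ + b) / ((c : ℂ) * τ + d)))) :
    E1 N v (((a : ℂ) * τ + b) / ((c : ℂ) * τ + d)) =
      ((c : ℂ) * τ + d) * E1 N (vecMulEquiv a b c d h v) τ := by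
  have hN' : (N : ℂ) ≠ 0 := Nat.cast_ne_zero.mpr hN
  have hj := denom_ne_zero' hτ h
  set τ' := ((a : ℂ) * τ + b) / ((c : ℂ) * τ + d) with hτ'def
  have hτ' : 0 < τ'.im := moebius_im hτ h
  have hz : ((c : ℂ) * τ + d) * divPt N v τ' = divPt N (vecMulEquiv a b c d h v) τ := by
    simp only [divPt, vecMulEquiv_apply, hτ'def]
    push_cast
    field_simp
    ring
  have hv2 : NotInLat τ (divPt N (vecMulEquiv a b c d h v) τ) := by
    rw [← hz]
    exact notInLat_moebius hτ h hv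
  rw [E1_eq_wzeta hτ' hv, E1_eq_wzeta hτ hv2, wzeta_moebius hτ h, cTau_moebius hτ h, hz]
  have hz' : divPt N v τ' = divPt N (vecMulEquiv a b c d h v) τ / ((c : ℂ) * τ + d) := by
    rw [← hz]
    field_simp
  rw [hz']
  simp only [divPt, vecMulEquiv_apply]
  have hC : ((a * d - b * c : ℤ) : ℂ) = 1 := by exact_mod_cast h
  push_cast at hC ⊢
  field_simp
  linear_combination (-(2 * Real.pi * I * (v.1 : ℂ))) * hC

end

end Fermat.Agent.S48.Mult
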