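import Mathlib

/-!
# PROJECT D (S48), brick B7a: functions on `ℍ` given by convergent `q`-expansions

* `mdiff_of_hasSum_qParam`: a function on the upper half plane which is everywhere the sum of a
  `q`-expansion `∑ c m * 𝕢 h τ ^ m` is holomorphic (Mathlib has the boundedness at `i∞`:
  `UpperHalfPlane.isBoundedAtImInfty_of_hasSum_qExpansion`).
* `hasSum_regroup`: regrouping a family `coef i * x ^ expo i` by exponent.
-/

set_option autoImplicit false

namespace Fermat.Agent.S48.Mult

open Complex Filter Topology UpperHalfPlane Function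

open scoped Manifold

local notation "𝕢" => Periodic.qParam

noncomputable section

/-- The power series `∑ c m x ^ m` has radius of convergence at least one. -/
theorem one_le_radius_of_hasSum_qParam {f : ℍ → ℂ} {c : ℕ → ℂ} {h : ℝ} (hh : 0 < h)
    (hf : ∀ τ : ℍ, HasSum (fun m => c m * 𝕢 h τ ^ m) (f τ)) :
    1 ≤ (FormalMultilinearSeries.ofScalars ℂ c).radius := by
  refine le_of_forall_lt_imp_le_of_dense fun r hr ↦ ?_
  rcases eq_or_ne r 0 with rfl | hr'
  · simp
  · lift r to NNReal using hr.ne_top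
    have hr1 : (r : ℝ) < 1 := by exact_mod_cast hr
    have hr0 : (r : ℝ) ≠ 0 := by exact_mod_cast hr'
    have hq : ‖((r : ℝ) : ℂ)‖ < 1 := by
      rw [Complex.norm_real, Real.norm_eq_abs, abs_of_nonneg r.coe_nonneg]
      exact hr1
    have hq1 : ((r : ℝ) : ℂ) ≠ 0 := by exact_mod_cast hr0
    have h1 := Periodic.im_invQParam_pos_of_norm_lt_one hh hq hq1
    have h2 := hf ⟨Periodic.invQParam h ((r : ℝ) : ℂ), h1⟩
    simp only [Periodic.qParam_right_inv hh.ne' hq1] at h2
    apply FormalMultilinearSeries.le_radius_of_summable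
    have h3 := h2.summable.norm
    refine h3.congr fun n => ?_
    rw [norm_mul, norm_pow, Complex.norm_real, Real.norm_eq_abs, abs_of_nonneg r.coe_nonneg]
    congr 1
    simp

/-- The sum of the power series. -/
def psSum (c : ℕ → ℂ) (x : ℂ) : ℂ := (FormalMultilinearSeries.ofScalars ℂ c).sum x

theorem differentiableOn_psSum {f : ℍ → ℂ} {c : ℕ → ℂ} {h : ℝ} (hh : 0 < h)
    (hf : ∀ τ : ℍ, HasSum (fun m => c m * 𝕢 h τ ^ m) (f τ)) :
    DifferentiableOn ℂ (psSum c) (Metric.ball 0 1) := by
  have hrad := one_le_radius_of_hasSum_qParam hh hf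
  have hpos : 0 < (FormalMultilinearSeries.ofScalars ℂ c).radius := lt_of_lt_of_le one_pos hrad
  have h1 := (FormalMultilinearSeries.ofScalars ℂ c).hasFPowerSeriesOnBall hpos
  have h2 := h1.differentiableOn
  refine h2.mono ?_
  intro x hx
  rw [Metric.mem_ball, dist_zero_right] at hx
  rw [Metric.mem_eball, edist_zero_right]
  refine lt_of_lt_of_le ?_ hrad
  rw [← ofReal_norm, ENNReal.ofReal_lt_one]
  exact hx

theorem psSum_qParam {f : ℍ → ℂ} {c : ℕ → ℂ} {h : ℝ} (hh : 0 < h)
    (hf : ∀ τ : ℍ, HasSum (fun m => c m * 𝕢 h τ ^ m) (f τ)) (τ : ℍ) :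
    psSum c (𝕢 h τ) = f τ := by
  have hrad := one_le_radius_of_hasSum_qParam hh hf
  have hx : 𝕢 h τ ∈ Metric.eball (0 : ℂ) (FormalMultilinearSeries.ofScalars ℂ c).radius := by
    rw [Metric.mem_eball, edist_zero_right]
    refine lt_of_lt_of_le ?_ hrad
    rw [← ofReal_norm, ENNReal.ofReal_lt_one]
    exact Periodic.norm_qParam_lt_one hh τ.im_pos
  have h1 := (FormalMultilinearSeries.ofScalars ℂ c).hasSum hx
  have h2 := hf τ
  have e : (fun n : ℕ => ((FormalMultilinearSeries.ofScalars ℂ c) n) fun _ => 𝕢 h τ) =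
      fun m => c m * 𝕢 h τ ^ m := by
    funext n
    simp [mul_comm]
  rw [e] at h1
  exact h1.unique h2

/-- A function on `ℍ` which is everywhere the sum of its `q`-expansion is holomorphic. -/
theorem mdiff_of_hasSum_qParam {f : ℍ → ℂ} {c : ℕ → ℂ} {h : ℝ} (hh : 0 < h)
    (hf : ∀ τ : ℍ, HasSum (fun m => c m * 𝕢 h τ ^ m) (f τ)) : MDiff f := by
  rw [UpperHalfPlane.mdifferentiable_iff]
  have hd := differentiableOn_psSum hh hf
  have hq : DifferentiableOn ℂ (𝕢 h) {z : ℂ | 0 < z.im} :=
    (Periodic.differentiable_qParam).differentiableOn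
  have hmaps : Set.MapsTo (𝕢 h) {z : ℂ | 0 < z.im} (Metric.ball 0 1) := by
    intro z hz
    rw [Metric.mem_ball, dist_zero_right]
    exact Periodic.norm_qParam_lt_one hh hz
  have hcomp := hd.comp hq hmaps
  refine hcomp.congr ?_
  intro z hz
  simp only [Function.comp_apply]
  rw [ofComplex_apply_of_im_pos hz]
  exact (psSum_qParam hh hf ⟨z, hz⟩).symm

/-- Regrouping by exponent. -/
theorem hasSum_regroup {ι : Type*} (coef : ι → ℂ) (expo : ι → ℕ) (x : ℂ) {S : ℂ}
    (hS : HasSum (fun i => coef i * x ^ expo i) S) :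
    HasSum (fun k : ℕ => (∑' i : expo ⁻¹' {k}, coef i) * x ^ k) S := by
  have h1 := hS.tsum_fiberwise expo
  have e : (fun k : ℕ => ∑' i : expo ⁻¹' {k}, coef i * x ^ expo i) =
      fun k : ℕ => (∑' i : expo ⁻¹' {k}, coef i) * x ^ k := by
    funext k
    rw [← tsum_mul_right]
    refine tsum_congr fun i => ?_
    have hi : expo i = k := i.2
    rw [hi]
  rw [e] at h1
  exact h1

end

end Fermat.Agent.S48.Mult
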