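import Mathlib
import Fermat.Agent.S48.Mult.Homog
import Fermat.Agent.S48.Mult.QExp

/-!
# PROJECT D (S48), brick B7a: the `q_N`-expansion of the weight one Eisenstein series

For `0 ≤ v₁ < N` the function `E1 N (v₁, v₂)` is a power series in `x = e(τ / N)`, convergent on
the whole upper half plane.
-/

set_option autoImplicit false

namespace Fermat.Agent.S48.Mult

open Complex Filter Topology

noncomputable section

theorem summable_geom_prod {ρ : ℝ} (h0 : 0 ≤ ρ) (h1 : ρ < 1) :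
    Summable fun p : ℕ × ℕ => ρ ^ (p.1 + p.2 + 1) := by
  have hg := summable_geometric_of_lt_one h0 h1
  have h2 : Summable fun p : ℕ × ℕ => (ρ ^ p.1) * (ρ * ρ ^ p.2) :=
    hg.mul_of_nonneg (hg.mul_left ρ) (fun n => pow_nonneg h0 n)
      (fun n => mul_nonneg h0 (pow_nonneg h0 n))
  refine h2.congr fun p => ?_
  ring

/-- Summability of a double family `coef p * x ^ expo p` with bounded coefficients and exponents
at least `p.1 + p.2 + 1`. -/
theorem summable_coef_pow {coef : ℕ × ℕ → ℂ} {expo : ℕ × ℕ → ℕ} {C : ℝ}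
    (hC : ∀ p, ‖coef p‖ ≤ C) (he : ∀ p, p.1 + p.2 + 1 ≤ expo p) {x : ℂ} (hx : ‖x‖ < 1) :
    Summable fun p : ℕ × ℕ => coef p * x ^ expo p := by
  have hC0 : 0 ≤ C := (norm_nonneg _).trans (hC (0, 0))
  have hs := (summable_geom_prod (norm_nonneg x) hx).mul_left C
  apply Summable.of_norm_bounded hs
  intro p
  rw [norm_mul, norm_pow]
  apply mul_le_mul (hC p) _ (pow_nonneg (norm_nonneg _) _) hC0
  exact pow_le_pow_of_le_one (norm_nonneg _) hx.le (he p)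

theorem norm_ee_intCast_div (v : ℤ) (N : ℕ) : ‖ee ((v : ℂ) / N)‖ = 1 := by
  rw [norm_ee]
  have : ((v : ℂ) / (N : ℂ)).im = 0 := by
    rw [Complex.div_im]
    simp
  rw [this]
  simp

theorem norm_ee_neg_intCast_div (v : ℤ) (N : ℕ) : ‖ee (-((v : ℂ) / N))‖ = 1 := by
  rw [ee_neg, norm_inv, norm_ee_intCast_div, inv_one]

section

variable (N v1 : ℕ) (v2 : ℤ)

/-- exponents of the first family -/
def expo1 (p : ℕ × ℕ) : ℕ := (v1 + (p.1 + 1) * N) * (p.2 + 1)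

/-- coefficients of the first family -/
def coef1 (p : ℕ × ℕ) : ℂ := -(2 * Real.pi * I) * ee ((v2 : ℂ) / N) ^ (p.2 + 1)

/-- exponents of the second family -/
def expo2 (p : ℕ × ℕ) : ℕ := ((p.1 + 1) * N - v1) * (p.2 + 1)

/-- coefficients of the second family -/
def coef2 (p : ℕ × ℕ) : ℂ := (2 * Real.pi * I) * ee (-((v2 : ℂ) / N)) ^ (p.2 + 1)

/-- exponents of the central term -/
def expo0 (r : ℕ) : ℕ := v1 * (r + 1)

/-- coefficients of the central term -/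
def coef0 (r : ℕ) : ℂ := -(2 * Real.pi * I) * ee ((v2 : ℂ) / N) ^ (r + 1)

theorem norm_coef1 (p : ℕ × ℕ) : ‖coef1 N v2 p‖ ≤ 2 * Real.pi := by
  rw [coef1, norm_mul, norm_pow, norm_ee_intCast_div, one_pow, mul_one, norm_neg]
  simp [abs_of_pos Real.pi_pos]

theorem norm_coef2 (p : ℕ × ℕ) : ‖coef2 N v2 p‖ ≤ 2 * Real.pi := by
  rw [coef2, norm_mul, norm_pow, norm_ee_neg_intCast_div, one_pow, mul_one]
  simp [abs_of_pos Real.pi_pos]

theorem le_expo1 (hN : N ≠ 0) (p : ℕ × ℕ) : p.1 + p.2 + 1 ≤ expo1 N v1 p := by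
  have hN1 : 1 ≤ N := Nat.one_le_iff_ne_zero.mpr hN
  have h1 : p.1 + 1 ≤ v1 + (p.1 + 1) * N := by nlinarith
  calc p.1 + p.2 + 1 ≤ (p.1 + 1) * (p.2 + 1) := by nlinarith
    _ ≤ expo1 N v1 p := Nat.mul_le_mul_right _ h1

theorem le_expo2 (hv1 : v1 < N) (p : ℕ × ℕ) : p.1 + p.2 + 1 ≤ expo2 N v1 p := by
  have h1 : p.1 + 1 ≤ (p.1 + 1) * N - v1 := by
    have : p.1 + 1 + v1 ≤ (p.1 + 1) * N := by nlinarith
    omega
  calc p.1 + p.2 + 1 ≤ (p.1 + 1) * (p.2 + 1) := by nlinarith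
    _ ≤ expo2 N v1 p := Nat.mul_le_mul_right _ h1

end

section expansions

variable {N : ℕ} (hN : N ≠ 0) {v1 : ℕ} (v2 : ℤ) {τ : ℂ}

theorem ee_tau (hN : N ≠ 0) (τ : ℂ) : ee τ = ee (τ / N) ^ N := by
  rw [← ee_nat_mul]
  congr 1
  have : (N : ℂ) ≠ 0 := Nat.cast_ne_zero.mpr hN
  field_simp

theorem ee_divPt (hN : N ≠ 0) (v1 : ℕ) (v2 : ℤ) (τ : ℂ) :
    ee (divPt N ((v1 : ℤ), v2) τ) = ee ((v2 : ℂ) / N) * ee (τ / N) ^ v1 := by
  rw [← ee_nat_mul, ← ee_add]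
  congr 1
  have : (N : ℂ) ≠ 0 := Nat.cast_ne_zero.mpr hN
  simp only [divPt]
  push_cast
  field_simp
  ring

theorem ee_divPt_add (hN : N ≠ 0) (v1 : ℕ) (v2 : ℤ) (τ : ℂ) (m : ℕ) :
    ee (divPt N ((v1 : ℤ), v2) τ + (m + 1 : ℕ) * τ) =
      ee ((v2 : ℂ) / N) * ee (τ / N) ^ (v1 + (m + 1) * N) := by
  rw [ee_add, ee_divPt hN, ee_nat_mul, ee_tau hN τ, ← pow_mul, mul_assoc, ← pow_add]
  congr 3
  ring

theorem ee_neg_divPt_sub (hN : N ≠ 0) {v1 : ℕ} (hv1 : v1 < N) (v2 : ℤ) (τ : ℂ) (m : ℕ) :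
    ee (-(divPt N ((v1 : ℤ), v2) τ - (m + 1 : ℕ) * τ)) =
      ee (-((v2 : ℂ) / N)) * ee (τ / N) ^ ((m + 1) * N - v1) := by
  have hle : v1 ≤ (m + 1) * N := by nlinarith
  have hN' : (N : ℂ) ≠ 0 := Nat.cast_ne_zero.mpr hN
  rw [← ee_nat_mul, ← ee_add]
  congr 1
  simp only [divPt]
  rw [Nat.cast_sub hle]
  push_cast
  field_simp
  ring

theorem norm_x_lt_one (hN : N ≠ 0) (hτ : 0 < τ.im) : ‖ee (τ / N)‖ < 1 := by
  apply norm_ee_lt_one
  have : (τ / (N : ℂ)).im = τ.im / N := by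
    rw [Complex.div_im]
    simp
    field_simp
  rw [this]
  have : (0 : ℝ) < N := Nat.cast_pos.mpr (Nat.pos_of_ne_zero hN)
  positivity

/-- The first family sums to `∑ (π cot π (z + (m+1) τ) + π i)`. -/
theorem hasSum_P1 (hN : N ≠ 0) (v1 : ℕ) (v2 : ℤ) (hτ : 0 < τ.im) :
    HasSum (fun m : ℕ => cotPi (divPt N ((v1 : ℤ), v2) τ + (m + 1 : ℕ) * τ) + Real.pi * I)
      (∑' p : ℕ × ℕ, coef1 N v2 p * ee (τ / N) ^ expo1 N v1 p) := by
  have hx := norm_x_lt_one hN hτ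
  have hs : Summable fun p : ℕ × ℕ => coef1 N v2 p * ee (τ / N) ^ expo1 N v1 p :=
    summable_coef_pow (norm_coef1 N v2) (le_expo1 N v1 hN) hx
  refine hs.hasSum.prod_fiberwise fun m => ?_
  have hlt : ‖ee (divPt N ((v1 : ℤ), v2) τ + (m + 1 : ℕ) * τ)‖ < 1 := by
    rw [ee_divPt_add hN, norm_mul, norm_ee_intCast_div, one_mul, norm_pow]
    apply pow_lt_one₀ (norm_nonneg _) hx
    have : 0 < (m + 1) * N := Nat.mul_pos (Nat.succ_pos m) (Nat.pos_of_ne_zero hN)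
    omega
  have h1 := hasSum_cotPi_of_norm_lt hlt
  have e : (fun r : ℕ => coef1 N v2 (m, r) * ee (τ / N) ^ expo1 N v1 (m, r)) =
      fun r : ℕ => -(2 * Real.pi * I) * ee (divPt N ((v1 : ℤ), v2) τ + (m + 1 : ℕ) * τ) ^ (r + 1) := by
    funext r
    rw [ee_divPt_add hN, coef1, expo1, mul_pow, ← pow_mul]
    ring
  rw [e]
  exact h1

/-- The second family sums to `∑ (π cot π (z - (m+1) τ) - π i)`. -/
theorem hasSum_P2 (hN : N ≠ 0) {v1 : ℕ} (hv1 : v1 < N) (v2 : ℤ) (hτ : 0 < τ.im) :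
    HasSum (fun m : ℕ => cotPi (divPt N ((v1 : ℤ), v2) τ - (m + 1 : ℕ) * τ) - Real.pi * I)
      (∑' p : ℕ × ℕ, coef2 N v2 p * ee (τ / N) ^ expo2 N v1 p) := by
  have hx := norm_x_lt_one hN hτ
  have hs : Summable fun p : ℕ × ℕ => coef2 N v2 p * ee (τ / N) ^ expo2 N v1 p :=
    summable_coef_pow (norm_coef2 N v2) (le_expo2 N v1 hv1) hx
  refine hs.hasSum.prod_fiberwise fun m => ?_
  have hlt : ‖ee (-(divPt N ((v1 : ℤ), v2) τ - (m + 1 : ℕ) * τ))‖ < 1 := by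
    rw [ee_neg_divPt_sub hN hv1, norm_mul, norm_ee_neg_intCast_div, one_mul, norm_pow]
    apply pow_lt_one₀ (norm_nonneg _) hx
    have : v1 < (m + 1) * N := by nlinarith
    omega
  have h1 := hasSum_cotPi_of_norm_neg_lt hlt
  have e : (fun r : ℕ => coef2 N v2 (m, r) * ee (τ / N) ^ expo2 N v1 (m, r)) =
      fun r : ℕ => (2 * Real.pi * I) *
        ee (-(divPt N ((v1 : ℤ), v2) τ - (m + 1 : ℕ) * τ)) ^ (r + 1) := by
    funext r
    rw [ee_neg_divPt_sub hN hv1, coef2, expo2, mul_pow, ← pow_mul]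
    ring
  rw [e]
  exact h1

/-- `Z(z_v) = π cot π z_v + S₁ + S₂`. -/
theorem Zfun_divPt (hN : N ≠ 0) {v1 : ℕ} (hv1 : v1 < N) (v2 : ℤ) (hτ : 0 < τ.im) :
    Zfun τ (divPt N ((v1 : ℤ), v2) τ) = cotPi (divPt N ((v1 : ℤ), v2) τ) +
      (∑' p : ℕ × ℕ, coef1 N v2 p * ee (τ / N) ^ expo1 N v1 p) +
      (∑' p : ℕ × ℕ, coef2 N v2 p * ee (τ / N) ^ expo2 N v1 p) := by
  have h1 := (hasSum_P1 hN v1 v2 hτ).add (hasSum_P2 hN hv1 v2 hτ)
  have h2 := hasSum_zPair hτ (divPt N ((v1 : ℤ), v2) τ)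
  have e : (fun m : ℕ => (cotPi (divPt N ((v1 : ℤ), v2) τ + (m + 1 : ℕ) * τ) + Real.pi * I) +
      (cotPi (divPt N ((v1 : ℤ), v2) τ - (m + 1 : ℕ) * τ) - Real.pi * I)) =
      zPair τ (divPt N ((v1 : ℤ), v2) τ) := by
    funext m
    rw [zPair]
    ring
  rw [e] at h1
  have h3 := h2.unique h1
  linear_combination h3

/-- The `q_N`-expansion coefficients of `E1 N (v₁, v₂)`. -/
def eCoeff (N v1 : ℕ) (v2 : ℤ) (k : ℕ) : ℂ :=
  (if k = 0 then (if v1 = 0 then cotPi ((v2 : ℂ) / N)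
      else -(Real.pi * I) + 2 * Real.pi * I * v1 / N) else 0) +
    (if v1 = 0 then 0 else ∑' i : expo0 v1 ⁻¹' {k}, coef0 N v2 i) +
    (∑' i : expo1 N v1 ⁻¹' {k}, coef1 N v2 i) +
    (∑' i : expo2 N v1 ⁻¹' {k}, coef2 N v2 i)

theorem hasSum_const_pow (C x : ℂ) :
    HasSum (fun k : ℕ => (if k = 0 then C else 0) * x ^ k) C := by
  have e : (fun k : ℕ => (if k = 0 then C else 0) * x ^ k) = fun k : ℕ => if k = 0 then C else 0 := by
    funext k
    by_cases hk : k = 0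
    · simp [hk]
    · simp [hk]
  rw [e]
  exact hasSum_ite_eq 0 C

/-- **The `q_N`-expansion of the weight one Eisenstein series.** -/
theorem hasSum_E1 (hN : N ≠ 0) {v1 : ℕ} (hv1 : v1 < N) (v2 : ℤ) (hτ : 0 < τ.im) :
    HasSum (fun k : ℕ => eCoeff N v1 v2 k * ee (τ / N) ^ k) (E1 N ((v1 : ℤ), v2) τ) := by
  have hx := norm_x_lt_one hN hτ
  have hs1 : Summable fun p : ℕ × ℕ => coef1 N v2 p * ee (τ / N) ^ expo1 N v1 p :=
    summable_coef_pow (norm_coef1 N v2) (le_expo1 N v1 hN) hx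
  have hs2 : Summable fun p : ℕ × ℕ => coef2 N v2 p * ee (τ / N) ^ expo2 N v1 p :=
    summable_coef_pow (norm_coef2 N v2) (le_expo2 N v1 hv1) hx
  have H1 := hasSum_regroup _ _ _ hs1.hasSum
  have H2 := hasSum_regroup _ _ _ hs2.hasSum
  rw [E1, Zfun_divPt hN hv1 v2 hτ]
  by_cases h0 : v1 = 0
  · -- the central term is constant
    subst h0
    have hz : divPt N (((0 : ℕ) : ℤ), v2) τ = (v2 : ℂ) / N := by
      simp [divPt]
    have H0 := hasSum_const_pow (cotPi ((v2 : ℂ) / N)) (ee (τ / N))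
    have H := (H0.add H1).add H2
    rw [hz]
    have e : (fun k : ℕ => eCoeff N 0 v2 k * ee (τ / N) ^ k) = fun k : ℕ =>
        (if k = 0 then cotPi ((v2 : ℂ) / N) else 0) * ee (τ / N) ^ k +
        (∑' i : expo1 N 0 ⁻¹' {k}, coef1 N v2 i) * ee (τ / N) ^ k +
        (∑' i : expo2 N 0 ⁻¹' {k}, coef2 N v2 i) * ee (τ / N) ^ k := by
      funext k
      simp only [eCoeff, if_true]
      ring
    rw [e]
    convert H using 1
    push_cast
    ring
  · have hlt : ‖ee (divPt N ((v1 : ℤ), v2) τ)‖ < 1 := by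
      rw [ee_divPt hN, norm_mul, norm_ee_intCast_div, one_mul, norm_pow]
      exact pow_lt_one₀ (norm_nonneg _) hx h0
    have h1 := hasSum_cotPi_of_norm_lt hlt
    have e0 : (fun r : ℕ => -(2 * Real.pi * I) * ee (divPt N ((v1 : ℤ), v2) τ) ^ (r + 1)) =
        fun r : ℕ => coef0 N v2 r * ee (τ / N) ^ expo0 v1 r := by
      funext r
      rw [ee_divPt hN, coef0, expo0, mul_pow, ← pow_mul]
      ring
    rw [e0] at h1
    have H0 := hasSum_regroup _ _ _ h1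
    have HC := hasSum_const_pow (-(Real.pi * I) + 2 * Real.pi * I * v1 / N) (ee (τ / N))
    have H := ((HC.add H0).add H1).add H2
    have e : (fun k : ℕ => eCoeff N v1 v2 k * ee (τ / N) ^ k) = fun k : ℕ =>
        (if k = 0 then -(Real.pi * I) + 2 * Real.pi * I * v1 / N else 0) * ee (τ / N) ^ k +
        (∑' i : expo0 v1 ⁻¹' {k}, coef0 N v2 i) * ee (τ / N) ^ k +
        (∑' i : expo1 N v1 ⁻¹' {k}, coef1 N v2 i) * ee (τ / N) ^ k +
        (∑' i : expo2 N v1 ⁻¹' {k}, coef2 N v2 i) * ee (τ / N) ^ k := by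
      funext k
      simp only [eCoeff, if_neg h0]
      ring
    rw [e]
    convert H using 1
    push_cast
    ring

end expansions

end

end Fermat.Agent.S48.Mult
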