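import Mathlib
import Fermat.Agent.S48.Mult.E1Exp

/-!
# PROJECT D (S48), brick B7a: the weight one Eisenstein series as functions on `ℍ`

`eis1 N v : ℍ → ℂ` for `v ∈ ℤ²`, `v ≢ 0 mod N`: slash law under all of `SL(2, ℤ)`,
holomorphy and boundedness at `i∞` (from the `q_N`-expansion).
-/

set_option autoImplicit false

namespace Fermat.Agent.S48.Mult

open Complex Filter Topology UpperHalfPlane ModularForm CongruenceSubgroup Function

open scoped MatrixGroups Manifold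

local notation "𝕢" => Periodic.qParam

noncomputable section

/-- The weight one Eisenstein series on the upper half plane. -/
def eis1 (N : ℕ) (v : ℤ × ℤ) : ℍ → ℂ := fun τ => E1 N v τ

theorem notInLat_divPt {N : ℕ} (hN : N ≠ 0) {τ : ℂ} (hτ : 0 < τ.im) {v : ℤ × ℤ}
    (hv : ¬ ((N : ℤ) ∣ v.1 ∧ (N : ℤ) ∣ v.2)) : NotInLat τ (divPt N v τ) := by
  intro m n h
  apply hv
  have hN' : (N : ℂ) ≠ 0 := Nat.cast_ne_zero.mpr hN
  have h1 : (v.1 : ℂ) * τ + v.2 = N * ((m : ℂ) * τ + n) := by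
    rw [← h, divPt]
    field_simp
  have him := congrArg Complex.im h1
  have hre := congrArg Complex.re h1
  simp at him hre
  have hτ0 : τ.im ≠ 0 := hτ.ne'
  have e1 : (v.1 : ℝ) = N * m := by
    have : ((v.1 : ℝ) - N * m) * τ.im = 0 := by linear_combination him
    rcases mul_eq_zero.mp this with h | h
    · linarith
    · exact absurd h hτ0
  have e1' : v.1 = N * m := by exact_mod_cast e1
  have e2 : (v.2 : ℝ) = N * n := by
    rw [e1] at hre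
    linear_combination hre
  have e2' : v.2 = N * n := by exact_mod_cast e2
  exact ⟨⟨m, e1'⟩, ⟨n, e2'⟩⟩

theorem sl_det (γ : SL(2, ℤ)) : γ 0 0 * γ 1 1 - γ 0 1 * γ 1 0 = 1 := by
  have := γ.det_coe
  rw [Matrix.det_fin_two] at this
  exact this

/-- `v ↦ v γ` on `ℤ²`. -/
def vmul (γ : SL(2, ℤ)) (v : ℤ × ℤ) : ℤ × ℤ :=
  vecMulEquiv (γ 0 0) (γ 0 1) (γ 1 0) (γ 1 1) (sl_det γ) v

theorem vmul_fst (γ : SL(2, ℤ)) (v : ℤ × ℤ) : (vmul γ v).1 = v.1 * γ 0 0 + v.2 * γ 1 0 := rfl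

theorem vmul_snd (γ : SL(2, ℤ)) (v : ℤ × ℤ) : (vmul γ v).2 = v.1 * γ 0 1 + v.2 * γ 1 1 := rfl

theorem coe_smul_eq (γ : SL(2, ℤ)) (τ : ℍ) :
    ((γ • τ : ℍ) : ℂ) = (((γ 0 0 : ℤ) : ℂ) * τ + ((γ 0 1 : ℤ) : ℂ)) /
      (((γ 1 0 : ℤ) : ℂ) * τ + ((γ 1 1 : ℤ) : ℂ)) := by
  rw [UpperHalfPlane.coe_specialLinearGroup_apply]
  simp

/-- **The slash law**: `eis1 N v ∣[1] γ = eis1 N (v γ)`. -/
theorem eis1_slash {N : ℕ} (hN : N ≠ 0) {v : ℤ × ℤ} (hv : ¬ ((N : ℤ) ∣ v.1 ∧ (N : ℤ) ∣ v.2))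
    (γ : SL(2, ℤ)) : eis1 N v ∣[(1 : ℤ)] γ = eis1 N (vmul γ v) := by
  funext τ
  rw [SL_slash_apply]
  have hden : denom γ τ = ((γ 1 0 : ℤ) : ℂ) * τ + ((γ 1 1 : ℤ) : ℂ) := by
    rw [ModularGroup.denom_apply]
  have hτ : 0 < (τ : ℂ).im := τ.im_pos
  have hj := denom_ne_zero' hτ (sl_det γ)
  have hτ' : 0 < ((γ • τ : ℍ) : ℂ).im := (γ • τ).im_pos
  have hv' : NotInLat ((γ • τ : ℍ) : ℂ) (divPt N v ((γ • τ : ℍ) : ℂ)) := notInLat_divPt hN hτ' hv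
  rw [coe_smul_eq] at hv'
  have key := E1_moebius hN (sl_det γ) hτ v hv'
  simp only [eis1]
  rw [coe_smul_eq, key, hden, vmul]
  rw [zpow_neg, zpow_one]
  field_simp

/-- `eis1 N v` depends only on `v` modulo `N`. -/
theorem eis1_congr {N : ℕ} (hN : N ≠ 0) {v v' : ℤ × ℤ} (h1 : (N : ℤ) ∣ v'.1 - v.1)
    (h2 : (N : ℤ) ∣ v'.2 - v.2) : eis1 N v' = eis1 N v := by
  obtain ⟨a, ha⟩ := h1
  obtain ⟨b, hb⟩ := h2
  funext τ
  have := E1_add_mul hN v (a, b) τ.im_pos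
  simp only [eis1]
  rw [← this]
  congr 2
  ext
  · simp only; linarith
  · simp only; linarith

theorem qParam_eq_ee (N : ℕ) (τ : ℂ) : 𝕢 (N : ℝ) τ = ee (τ / N) := by
  rw [Periodic.qParam, ee]
  congr 1
  push_cast
  ring

/-- Every `eis1 N v` has a `q_N`-expansion converging on all of `ℍ`. -/
theorem exists_hasSum_eis1 {N : ℕ} (hN : N ≠ 0) (v : ℤ × ℤ) :
    ∃ c : ℕ → ℂ, ∀ τ : ℍ, HasSum (fun k => c k * 𝕢 (N : ℝ) τ ^ k) (eis1 N v τ) := by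
  have hNpos : (0 : ℤ) < N := by exact_mod_cast Nat.pos_of_ne_zero hN
  set r : ℤ := v.1 % N with hr
  have hr0 : 0 ≤ r := Int.emod_nonneg _ hNpos.ne'
  have hrN : r < N := Int.emod_lt_of_pos _ hNpos
  have hnat : ((r.toNat : ℕ) : ℤ) = r := Int.toNat_of_nonneg hr0
  have hlt : r.toNat < N := by
    have : ((r.toNat : ℕ) : ℤ) < N := by rw [hnat]; exact hrN
    exact_mod_cast this
  have hcongr : eis1 N v = eis1 N ((r.toNat : ℤ), v.2) := by
    apply eis1_congr hN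
    · simp only
      rw [hnat, hr]
      exact Int.dvd_sub_self_of_emod_eq rfl |>.neg_right |> fun h => by simpa using h
    · simp
  refine ⟨eCoeff N r.toNat v.2, fun τ => ?_⟩
  rw [hcongr]
  have := hasSum_E1 hN hlt v.2 τ.im_pos
  simp only [eis1, qParam_eq_ee]
  exact this

end

end Fermat.Agent.S48.Mult
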