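import Mathlib
import Fermat.Agent.S48.Mult.E1Form

/-!
# PROJECT D (S48), brick B7a: linear combinations of the `eis1 N (0, b)` as modular forms on
`Γ₁(N)`
-/

set_option autoImplicit false

namespace Fermat.Agent.S48.Mult

open Complex Filter Topology UpperHalfPlane ModularForm CongruenceSubgroup Function

open scoped MatrixGroups Manifold

local notation "𝕢" => Periodic.qParam

noncomputable section

variable (N : ℕ) [NeZero N]

/-- A finite combination of weight one Eisenstein series. -/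
def combo (w : ZMod N → ℤ × ℤ) (c : ZMod N → ℂ) : ℍ → ℂ :=
  fun τ => ∑ b : ZMod N, c b * eis1 N (w b) τ

theorem exists_hasSum_combo (w : ZMod N → ℤ × ℤ) (c : ZMod N → ℂ) :
    ∃ C : ℕ → ℂ, ∀ τ : ℍ, HasSum (fun k => C k * 𝕢 (N : ℝ) τ ^ k) (combo N w c τ) := by
  have hN : N ≠ 0 := NeZero.ne N
  choose cb hcb using fun b : ZMod N => exists_hasSum_eis1 hN (w b)
  refine ⟨fun k => ∑ b : ZMod N, c b * cb b k, fun τ => ?_⟩
  have h1 : HasSum (fun k => ∑ b : ZMod N, c b * (cb b k * 𝕢 (N : ℝ) τ ^ k))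
      (∑ b : ZMod N, c b * eis1 N (w b) τ) :=
    hasSum_sum fun b _ => (hcb b τ).mul_left (c b)
  refine h1.congr_fun ?_ |> id
  intro k
  rw [Finset.sum_mul]
  refine Finset.sum_congr rfl fun b _ => ?_
  ring

theorem mdiff_combo (w : ZMod N → ℤ × ℤ) (c : ZMod N → ℂ) : MDiff (combo N w c) := by
  obtain ⟨C, hC⟩ := exists_hasSum_combo N w c
  have hN : (0 : ℝ) < N := Nat.cast_pos.mpr (Nat.pos_of_ne_zero (NeZero.ne N))
  exact mdiff_of_hasSum_qParam hN hC

theorem isBoundedAtImInfty_combo (w : ZMod N → ℤ × ℤ) (c : ZMod N → ℂ) :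
    IsBoundedAtImInfty (combo N w c) := by
  obtain ⟨C, hC⟩ := exists_hasSum_combo N w c
  have hN : (0 : ℝ) < N := Nat.cast_pos.mpr (Nat.pos_of_ne_zero (NeZero.ne N))
  exact UpperHalfPlane.isBoundedAtImInfty_of_hasSum_qExpansion hN
    (fun τ => by simpa [smul_eq_mul] using hC τ)

/-- The vector `(0, b)`. -/
def vec0 (b : ZMod N) : ℤ × ℤ := (0, (b.val : ℤ))

theorem vec0_ne {b : ZMod N} (hb : b ≠ 0) :
    ¬ ((N : ℤ) ∣ (vec0 N b).1 ∧ (N : ℤ) ∣ (vec0 N b).2) := by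
  rintro ⟨-, h⟩
  apply hb
  simp only [vec0] at h
  have h2 : N ∣ b.val := by exact_mod_cast h
  have h3 : b.val = 0 := Nat.eq_zero_of_dvd_of_lt h2 (ZMod.val_lt b)
  exact (ZMod.val_eq_zero b).mp h3

/-- The combination `∑_b c(b) eis1 N (0, b)`. -/
def eisComb (c : ZMod N → ℂ) : ℍ → ℂ := combo N (vec0 N) c

/-- The slash action of `SL(2, ℤ)` on `eisComb`. -/
theorem eisComb_slash {c : ZMod N → ℂ} (hc0 : c 0 = 0) (γ : SL(2, ℤ)) :
    eisComb N c ∣[(1 : ℤ)] γ = combo N (fun b => vmul γ (vec0 N b)) c := by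
  have hN : N ≠ 0 := NeZero.ne N
  funext τ
  rw [SL_slash_apply]
  simp only [eisComb, combo]
  rw [Finset.sum_mul]
  refine Finset.sum_congr rfl fun b _ => ?_
  by_cases hb : b = 0
  · simp [hb, hc0]
  · have h := congrFun (eis1_slash hN (vec0_ne N hb) γ) τ
    rw [SL_slash_apply] at h
    rw [mul_assoc, h]

end

end Fermat.Agent.S48.Mult
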