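import Mathlib
import Fermat.Agent.S48.Mult.EisComb

/-!
# PROJECT D (S48), brick B7a: `eisComb N c` is a modular form of weight one on `Γ₁(N)`,
with the transformation law under `Γ₀(N)`
-/

set_option autoImplicit false

namespace Fermat.Agent.S48.Mult

open Complex Filter Topology UpperHalfPlane ModularForm CongruenceSubgroup Function

open scoped MatrixGroups Manifold

noncomputable section

variable (N : ℕ) [NeZero N]

/-- For `γ ∈ Γ₀(N)`: `(0, b) γ ≡ (0, b d)` modulo `N`, `d` the lower right entry. -/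
theorem eis1_vmul_vec0 {γ : SL(2, ℤ)} (hγ : γ ∈ Gamma0 N) (b : ZMod N) :
    eis1 N (vmul γ (vec0 N b)) = eis1 N (vec0 N (b * ((γ 1 1 : ℤ) : ZMod N))) := by
  have hN : N ≠ 0 := NeZero.ne N
  rw [Gamma0_mem] at hγ
  symm
  apply eis1_congr hN
  · rw [vmul_fst]
    simp only [vec0, zero_mul, zero_add]
    rw [zero_sub, dvd_neg]
    exact Dvd.dvd.mul_left ((ZMod.intCast_zmod_eq_zero_iff_dvd _ N).mp hγ) _
  · rw [vmul_snd]
    simp only [vec0, zero_mul, zero_add]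
    rw [← ZMod.intCast_eq_intCast_iff_dvd_sub]
    push_cast
    simp

theorem isUnit_of_mem_Gamma0 {γ : SL(2, ℤ)} (hγ : γ ∈ Gamma0 N) :
    IsUnit ((γ 1 1 : ℤ) : ZMod N) := by
  rw [Gamma0_mem] at hγ
  have h : ((γ 0 0 : ℤ) : ZMod N) * ((γ 1 1 : ℤ) : ZMod N) -
      ((γ 0 1 : ℤ) : ZMod N) * ((γ 1 0 : ℤ) : ZMod N) = 1 := by
    have h0 := congrArg (Int.cast : ℤ → ZMod N) (sl_det γ)
    rw [Int.cast_sub, Int.cast_mul, Int.cast_mul, Int.cast_one] at h0
    exact h0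
  rw [hγ, mul_zero, sub_zero] at h
  exact IsUnit.of_mul_eq_one _ (by rw [mul_comm]; exact h)

/-- **Transformation under `Γ₀(N)`**: if `c b = κ * c (b d)` for all `b` then
`eisComb N c ∣[1] γ = κ • eisComb N c`. -/
theorem eisComb_slash_Gamma0 {c : ZMod N → ℂ} (hc0 : c 0 = 0) {γ : SL(2, ℤ)} (hγ : γ ∈ Gamma0 N)
    (κ : ℂ) (hκ : ∀ b : ZMod N, c b = κ * c (b * ((γ 1 1 : ℤ) : ZMod N))) :
    eisComb N c ∣[(1 : ℤ)] γ = κ • eisComb N c := by
  rw [eisComb_slash N hc0 γ]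
  funext τ
  simp only [combo, eisComb, Pi.smul_apply, smul_eq_mul]
  obtain ⟨u, hu⟩ := isUnit_of_mem_Gamma0 N hγ
  rw [Finset.mul_sum]
  have e : ∀ b : ZMod N, c b * eis1 N (vmul γ (vec0 N b)) τ =
      κ * (c (b * (u : ZMod N)) * eis1 N (vec0 N (b * (u : ZMod N))) τ) := by
    intro b
    rw [eis1_vmul_vec0 N hγ b, hu, hκ b]
    ring
  rw [Finset.sum_congr rfl fun b _ => e b]
  exact Fintype.sum_equiv (Units.mulRight u) _ _ (fun b => by simp)

/-- **`eisComb N c` is a modular form of weight one on `Γ₁(N)`.** -/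
def eisCombMF {c : ZMod N → ℂ} (hc0 : c 0 = 0) :
    ModularForm ((Gamma1 N).map (Matrix.SpecialLinearGroup.mapGL ℝ)) 1 where
  toFun := eisComb N c
  slash_action_eq' := by
    rintro γ' ⟨γ, hγ, rfl⟩
    have hm := (Gamma1_mem N γ).mp hγ
    have h0 : γ ∈ Gamma0 N := Gamma0_mem.mpr hm.2.2
    have h1 : ((γ 1 1 : ℤ) : ZMod N) = 1 := hm.2.1
    have := eisComb_slash_Gamma0 N hc0 h0 1 (fun b => by rw [h1, mul_one, one_mul])
    rw [one_smul] at this
    exact this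
  holo' := mdiff_combo N _ c
  bdd_at_cusps' {cusp} hc := by
    have hc' := hc.mono (Subgroup.map_le_range _ _)
    rw [OnePoint.isBoundedAt_iff_forall_SL2Z hc']
    intro γ _
    rw [eisComb_slash N hc0 γ]
    exact isBoundedAtImInfty_combo N _ c

@[simp]
theorem coe_eisCombMF {c : ZMod N → ℂ} (hc0 : c 0 = 0) :
    (eisCombMF N hc0 : ℍ → ℂ) = eisComb N c := rfl

end

end Fermat.Agent.S48.Mult
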