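import Mathlib
import Fermat.Agent.S48.Mult.EisMF

/-!
# PROJECT D (S48), brick B7a: the explicit `q`-expansion of `eis1 N (0, b)`

`E1 N (0, v₂) τ = π cot (π v₂ / N) - 2 π i ∑_{n ≥ 1} (∑_{r ∣ n} (ζ^r - ζ^{-r})) q^n`, `ζ = e(v₂/N)`.
-/

set_option autoImplicit false

namespace Fermat.Agent.S48.Mult

open Complex Filter Topology ModularForm CongruenceSubgroup Function

open UpperHalfPlane hiding I

open scoped MatrixGroups Manifold

noncomputable section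

/-- The exponent map `(m, r) ↦ (m + 1) (r + 1)`. -/
def dexp (p : ℕ × ℕ) : ℕ := (p.1 + 1) * (p.2 + 1)

/-- The fibre of `dexp` over `n ≠ 0` is the set of divisors of `n`. -/
def dexpFiberEquiv {n : ℕ} (hn : n ≠ 0) : dexp ⁻¹' {n} ≃ n.divisors where
  toFun p := ⟨p.1.2 + 1, Nat.mem_divisors.mpr ⟨Dvd.intro_left (p.1.1 + 1) p.2, hn⟩⟩
  invFun r := ⟨(n / r.1 - 1, r.1 - 1), by
    have hr := Nat.mem_divisors.mp r.2
    have hr0 : 0 < r.1 := Nat.pos_of_dvd_of_pos hr.1 (Nat.pos_of_ne_zero hn)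
    have hq0 : 0 < n / r.1 := Nat.div_pos (Nat.le_of_dvd (Nat.pos_of_ne_zero hn) hr.1) hr0
    show (n / r.1 - 1 + 1) * (r.1 - 1 + 1) = n
    rw [Nat.sub_add_cancel hq0, Nat.sub_add_cancel hr0]
    exact Nat.div_mul_cancel hr.1⟩
  left_inv p := by
    have hp : (p.1.1 + 1) * (p.1.2 + 1) = n := p.2
    apply Subtype.ext
    apply Prod.ext
    · show n / (p.1.2 + 1) - 1 = p.1.1
      have h2 : n / (p.1.2 + 1) = p.1.1 + 1 := by
        apply Nat.div_eq_of_eq_mul_left (Nat.succ_pos _)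
        exact hp.symm
      rw [h2]
      rfl
    · rfl
  right_inv r := by
    have hr := Nat.mem_divisors.mp r.2
    have hr0 : 0 < r.1 := Nat.pos_of_dvd_of_pos hr.1 (Nat.pos_of_ne_zero hn)
    apply Subtype.ext
    show r.1 - 1 + 1 = r.1
    exact Nat.sub_add_cancel hr0

theorem tsum_dexp_fiber (g : ℕ → ℂ) (n : ℕ) :
    ∑' p : dexp ⁻¹' {n}, g (p.1.2 + 1) = ∑ r ∈ n.divisors, g r := by
  by_cases hn : n = 0
  · subst hn
    have : IsEmpty (dexp ⁻¹' {0}) := by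
      constructor
      rintro ⟨p, hp⟩
      have h1 : (p.1 + 1) * (p.2 + 1) = 0 := hp
      have h2 := Nat.mul_ne_zero (Nat.succ_ne_zero p.1) (Nat.succ_ne_zero p.2)
      exact h2 h1
    simp
  · rw [← Finset.tsum_subtype n.divisors g]
    exact (dexpFiberEquiv hn).tsum_eq (fun r : n.divisors => g r.1)

section

variable {N : ℕ} (hN : N ≠ 0) (v2 : ℤ) {τ : ℂ}

/-- The period one coefficients of `E1 N (0, v₂)`. -/
def qCoef (N : ℕ) (v2 : ℤ) (n : ℕ) : ℂ :=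
  (if n = 0 then cotPi ((v2 : ℂ) / N) else 0) +
    -(2 * Real.pi * I) * ∑ r ∈ n.divisors, (ee ((v2 : ℂ) / N) ^ r - ee (-((v2 : ℂ) / N)) ^ r)

/-- **The `q`-expansion of `E1 N (0, v₂)`.** -/
theorem hasSum_E1_zero (hN : N ≠ 0) (v2 : ℤ) (hτ : 0 < τ.im) :
    HasSum (fun n : ℕ => qCoef N v2 n * ee τ ^ n) (E1 N ((0 : ℤ), v2) τ) := by
  have hpos : 0 < N := Nat.pos_of_ne_zero hN
  have hx := norm_x_lt_one hN hτ
  have hs1 : Summable fun p : ℕ × ℕ => coef1 N v2 p * ee (τ / N) ^ expo1 N 0 p :=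
    summable_coef_pow (norm_coef1 N v2) (le_expo1 N 0 hN) hx
  have hs2 : Summable fun p : ℕ × ℕ => coef2 N v2 p * ee (τ / N) ^ expo2 N 0 p :=
    summable_coef_pow (norm_coef2 N v2) (le_expo2 N 0 hpos) hx
  have e1 : (fun p : ℕ × ℕ => coef1 N v2 p * ee (τ / N) ^ expo1 N 0 p) =
      fun p : ℕ × ℕ => coef1 N v2 p * ee τ ^ dexp p := by
    funext p
    rw [ee_tau hN τ, ← pow_mul, expo1, dexp]
    congr 2
    ring
  have e2 : (fun p : ℕ × ℕ => coef2 N v2 p * ee (τ / N) ^ expo2 N 0 p) =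
      fun p : ℕ × ℕ => coef2 N v2 p * ee τ ^ dexp p := by
    funext p
    rw [ee_tau hN τ, ← pow_mul, expo2, dexp]
    congr 2
    rw [Nat.sub_zero]
    ring
  have hZ := Zfun_divPt hN hpos v2 hτ
  rw [e1, e2] at hZ
  rw [e1] at hs1
  rw [e2] at hs2
  have H1 := hasSum_regroup _ _ _ hs1.hasSum
  have H2 := hasSum_regroup _ _ _ hs2.hasSum
  have f1 : ∀ n : ℕ, ∑' i : dexp ⁻¹' {n}, coef1 N v2 i =
      -(2 * Real.pi * I) * ∑ r ∈ n.divisors, ee ((v2 : ℂ) / N) ^ r := by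
    intro n
    have := tsum_dexp_fiber (fun r => -(2 * Real.pi * I) * ee ((v2 : ℂ) / N) ^ r) n
    rw [← Finset.mul_sum] at this
    rw [← this]
    rfl
  have f2 : ∀ n : ℕ, ∑' i : dexp ⁻¹' {n}, coef2 N v2 i =
      (2 * Real.pi * I) * ∑ r ∈ n.divisors, ee (-((v2 : ℂ) / N)) ^ r := by
    intro n
    have := tsum_dexp_fiber (fun r => (2 * Real.pi * I) * ee (-((v2 : ℂ) / N)) ^ r) n
    rw [← Finset.mul_sum] at this
    rw [← this]
    rfl
  simp only [f1] at H1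
  simp only [f2] at H2
  have hz : divPt N (((0 : ℕ) : ℤ), v2) τ = (v2 : ℂ) / N := by
    simp [divPt]
  have H0 := hasSum_const_pow (cotPi ((v2 : ℂ) / N)) (ee τ)
  have H := (H0.add H1).add H2
  have hE : E1 N ((0 : ℤ), v2) τ = cotPi ((v2 : ℂ) / N) +
      (∑' p : ℕ × ℕ, coef1 N v2 p * ee τ ^ dexp p) +
      (∑' p : ℕ × ℕ, coef2 N v2 p * ee τ ^ dexp p) := by
    have h0 : ((0 : ℕ) : ℤ) = 0 := rfl
    rw [E1, ← h0, hZ, hz]
    simp
  rw [hE]
  refine H.congr_fun ?_ |> id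
  intro n
  simp only [qCoef, Finset.sum_sub_distrib]
  ring

end

end

end Fermat.Agent.S48.Mult
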