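import Mathlib
import Fermat.Prelude.Def_FLTPrelim_Modularity
import Fermat.Agent.S48.Mult.EisQ

/-!
# PROJECT D (S48), brick B7a, the (X)-seam: the family of weight one Eisenstein series on `Γ₁(N)`

`E b = (2 π i)⁻¹ • eis1 N (0, b)` for `b ∈ ZMod N`, `b ≠ 0`: modular forms of weight one on
`Γ₁(N)`, permuted by `Γ₀(N)`, with explicit `q`-expansions.  This is `EisFamily N` in the literal
shape asked for by the consumer (helper16, board #5630).
-/

set_option autoImplicit false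

namespace Fermat.Agent.S48.Mult

open Complex Filter Topology ModularForm CongruenceSubgroup Function ModularFormClass

open UpperHalfPlane hiding I

open scoped MatrixGroups Manifold

local notation "𝕢" => Periodic.qParam

noncomputable section

/-- `ζ_N ^ b`. -/
def zt (N : ℕ) (b : ZMod N) : ℂ :=
  Complex.exp (2 * Real.pi * Complex.I * (b.val : ℂ) / (N : ℂ))

/-- The (X)-seam of brick B7a. -/
def EisFamily (N : ℕ) [NeZero N] : Prop :=
  ∃ E : ZMod N → ModularForm (Gamma1 N) 1,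
    (∀ b : ZMod N, b ≠ 0 → ∀ γ : SL(2, ℤ), γ ∈ Gamma0 N →
      (⇑(E b)) ∣[(1 : ℤ)] γ = ⇑(E (b * ((γ 1 1 : ℤ) : ZMod N)))) ∧
    (∀ b : ZMod N, b ≠ 0 → qCoeff (E b) 0 = (zt N b + 1) / (2 * (zt N b - 1))) ∧
    (∀ b : ZMod N, b ≠ 0 → ∀ n : ℕ, 0 < n →
      qCoeff (E b) n = ∑ r ∈ n.divisors, ((zt N b)⁻¹ ^ r - zt N b ^ r))

variable (N : ℕ) [NeZero N]

omit [NeZero N] in
theorem single_zero_of_ne {b : ZMod N} (hb : b ≠ 0) : (Pi.single b (1 : ℂ) : ZMod N → ℂ) 0 = 0 := by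
  rw [Pi.single_apply, if_neg (Ne.symm hb)]

theorem eisComb_single (b : ZMod N) : eisComb N (Pi.single b (1 : ℂ)) = eis1 N (vec0 N b) := by
  funext τ
  simp only [eisComb, combo]
  rw [Finset.sum_eq_single b]
  · simp
  · intro b' _ hb'
    rw [Pi.single_apply, if_neg hb', zero_mul]
  · intro h
    exact absurd (Finset.mem_univ b) h

theorem combo_single (w : ZMod N → ℤ × ℤ) (b : ZMod N) :
    combo N w (Pi.single b (1 : ℂ)) = eis1 N (w b) := by
  funext τ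
  simp only [combo]
  rw [Finset.sum_eq_single b]
  · simp
  · intro b' _ hb'
    rw [Pi.single_apply, if_neg hb', zero_mul]
  · intro h
    exact absurd (Finset.mem_univ b) h

/-- The family. -/
def eisFam (b : ZMod N) : ModularForm (Gamma1 N) 1 :=
  if hb : b = 0 then 0 else (2 * Real.pi * I : ℂ)⁻¹ • eisCombMF N (single_zero_of_ne N hb)

theorem coe_eisFam {b : ZMod N} (hb : b ≠ 0) :
    (⇑(eisFam N b) : ℍ → ℂ) = (2 * Real.pi * I : ℂ)⁻¹ • eis1 N (vec0 N b) := by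
  rw [eisFam, dif_neg hb]
  rw [FunLike.coe_smul, coe_eisCombMF, eisComb_single]

theorem eisFam_slash {b : ZMod N} (hb : b ≠ 0) {γ : SL(2, ℤ)} (hγ : γ ∈ Gamma0 N) :
    (⇑(eisFam N b)) ∣[(1 : ℤ)] γ = ⇑(eisFam N (b * ((γ 1 1 : ℤ) : ZMod N))) := by
  have hN : N ≠ 0 := NeZero.ne N
  obtain ⟨u, hu⟩ := isUnit_of_mem_Gamma0 N hγ
  have hb' : b * ((γ 1 1 : ℤ) : ZMod N) ≠ 0 := by
    rw [← hu]
    intro h
    apply hb
    have := congrArg (fun x => x * ((u⁻¹ : (ZMod N)ˣ) : ZMod N)) h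
    simpa [mul_assoc] using this
  rw [coe_eisFam N hb, coe_eisFam N hb', SL_smul_slash, eis1_slash hN (vec0_ne N hb) γ,
    eis1_vmul_vec0 N hγ b]

theorem qParam_one_eq_ee (τ : ℂ) : 𝕢 (1 : ℝ) τ = ee τ := by
  rw [Periodic.qParam, ee]
  congr 1
  simp

theorem hasSum_eisFam {b : ZMod N} (hb : b ≠ 0) (τ : ℍ) :
    HasSum (fun n : ℕ => ((2 * Real.pi * I : ℂ)⁻¹ * qCoef N (b.val : ℤ) n) • 𝕢 (1 : ℝ) τ ^ n)
      (eisFam N b τ) := by
  have hN : N ≠ 0 := NeZero.ne N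
  have h := (hasSum_E1_zero hN (b.val : ℤ) τ.im_pos).mul_left ((2 * Real.pi * I : ℂ)⁻¹)
  have e : eisFam N b τ = (2 * Real.pi * I : ℂ)⁻¹ * E1 N ((0 : ℤ), (b.val : ℤ)) τ := by
    rw [coe_eisFam N hb]
    rfl
  rw [e]
  refine h.congr_fun ?_ |> id
  intro n
  rw [qParam_one_eq_ee, smul_eq_mul]
  ring

omit [NeZero N] in
theorem one_mem_strictPeriods_Gamma1' :
    (1 : ℝ) ∈ ((Gamma1 N : Subgroup SL(2, ℤ)) : Subgroup (GL (Fin 2) ℝ)).strictPeriods := by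
  rw [strictPeriods_Gamma1]
  exact AddSubgroup.mem_zmultiples 1

theorem qCoeff_eisFam {b : ZMod N} (hb : b ≠ 0) (n : ℕ) :
    qCoeff (eisFam N b) n = (2 * Real.pi * I : ℂ)⁻¹ * qCoef N (b.val : ℤ) n := by
  have := ModularFormClass.qExpansion_coeff_unique (f := eisFam N b) one_pos
    (one_mem_strictPeriods_Gamma1' N) (hasSum_eisFam N hb) n
  unfold qCoeff
  rw [← this]

omit [NeZero N] in
theorem ee_eq_zt (b : ZMod N) : ee (((b.val : ℤ) : ℂ) / N) = zt N b := by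
  rw [ee, zt]
  congr 1
  push_cast
  ring

omit [NeZero N] in
theorem ee_neg_eq_zt_inv (b : ZMod N) : ee (-(((b.val : ℤ) : ℂ) / N)) = (zt N b)⁻¹ := by
  rw [ee_neg, ee_eq_zt]

theorem zt_ne_one {b : ZMod N} (hb : b ≠ 0) : zt N b ≠ 1 := by
  have hN : (N : ℂ) ≠ 0 := Nat.cast_ne_zero.mpr (NeZero.ne N)
  intro h
  rw [zt, Complex.exp_eq_one_iff] at h
  obtain ⟨n, hn⟩ := h
  have h2 : (b.val : ℂ) = n * N := by
    have h2pi : (2 * (Real.pi : ℂ) * I) ≠ 0 := by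
      simp [Real.pi_ne_zero]
    field_simp at hn
    linear_combination hn
  have h3 : ((b.val : ℤ) : ℂ) = ((n * N : ℤ) : ℂ) := by
    push_cast
    exact h2
  have h4 : (b.val : ℤ) = n * N := by exact_mod_cast h3
  have h5 : (N : ℤ) ∣ (b.val : ℤ) := ⟨n, by rw [h4]; ring⟩
  have h6 : N ∣ b.val := by exact_mod_cast h5
  have h7 : b.val = 0 := Nat.eq_zero_of_dvd_of_lt h6 (ZMod.val_lt b)
  exact hb ((ZMod.val_eq_zero b).mp h7)

/-- **The (X)-seam holds.** -/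
theorem eisFamily : EisFamily N := by
  refine ⟨eisFam N, fun b hb γ hγ => eisFam_slash N hb hγ, fun b hb => ?_, fun b hb n hn => ?_⟩
  · rw [qCoeff_eisFam N hb, qCoef, if_pos rfl, Nat.divisors_zero, Finset.sum_empty, mul_zero,
      add_zero, cotPi_eq, ee_eq_zt]
    have h1 : zt N b - 1 ≠ 0 := sub_ne_zero.mpr (zt_ne_one N hb)
    have h2 : (1 : ℂ) - zt N b ≠ 0 := sub_ne_zero.mpr (Ne.symm (zt_ne_one N hb))
    have hpi : (Real.pi : ℂ) ≠ 0 := by simp [Real.pi_ne_zero]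
    field_simp
    ring_nf
    rw [Complex.I_sq]
    ring
  · rw [qCoeff_eisFam N hb, qCoef, if_neg hn.ne', zero_add, ee_eq_zt, ee_neg_eq_zt_inv,
      ← mul_assoc]
    have hpi : (2 * (Real.pi : ℂ) * I) ≠ 0 := by
      simp [Real.pi_ne_zero]
    rw [mul_neg, inv_mul_cancel₀ hpi, neg_one_mul, ← Finset.sum_neg_distrib]
    refine Finset.sum_congr rfl fun r _ => ?_
    ring

end

end Fermat.Agent.S48.Mult
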